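import Mathlib

/-!
# ℚ-valued additive valuations: a small calculus (S05)

`QVal K` is an additive valuation `ord : K → ℚ` (junk value at `0`).  We use the predicates
`v.Is x t` (`x ≠ 0` and `ord x = t`), `v.Ge x t` (`x = 0` or `t ≤ ord x`), `v.Le x t`
(`x ≠ 0` and `ord x ≤ t`), `v.Gt`, `v.Lt` and prove the usual ultrametric rules, together with
the Newton polygon of a quadratic (`np_ge`, `np_is`, `np_le`).
-/

set_option autoImplicit false

namespace Fermat.Agent.S05Lib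

/-- An additive `ℚ`-valued valuation on a field (value at `0` is junk). -/
structure QVal (K : Type*) [Field K] where
  ord : K → ℚ
  ord_mul' : ∀ {x y : K}, x ≠ 0 → y ≠ 0 → ord (x * y) = ord x + ord y
  ord_add' : ∀ {x y : K}, x ≠ 0 → y ≠ 0 → x + y ≠ 0 → min (ord x) (ord y) ≤ ord (x + y)

namespace QVal

variable {K : Type*} [Field K] (v : QVal K)

lemma ord_one : v.ord 1 = 0 := by
  have h := v.ord_mul' (one_ne_zero (α := K)) one_ne_zero
  rw [mul_one] at h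
  linarith

lemma ord_neg_one : v.ord (-1) = 0 := by
  have h := v.ord_mul' (neg_ne_zero.mpr (one_ne_zero (α := K))) (neg_ne_zero.mpr one_ne_zero)
  rw [neg_mul_neg, mul_one, v.ord_one] at h
  linarith

lemma ord_neg (x : K) : v.ord (-x) = v.ord x := by
  by_cases hx : x = 0
  · rw [hx, neg_zero]
  · have h := v.ord_mul' (neg_ne_zero.mpr (one_ne_zero (α := K))) hx
    rw [neg_one_mul, v.ord_neg_one, zero_add] at h
    exact h

lemma ord_inv {x : K} (hx : x ≠ 0) : v.ord x⁻¹ = -v.ord x := by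
  have h := v.ord_mul' hx (inv_ne_zero hx)
  rw [mul_inv_cancel₀ hx, v.ord_one] at h
  linarith

lemma ord_div {x y : K} (hx : x ≠ 0) (hy : y ≠ 0) : v.ord (x / y) = v.ord x - v.ord y := by
  rw [div_eq_mul_inv, v.ord_mul' hx (inv_ne_zero hy), v.ord_inv hy]
  ring

lemma ord_pow {x : K} (hx : x ≠ 0) (n : ℕ) : v.ord (x ^ n) = n * v.ord x := by
  induction n with
  | zero => simp [v.ord_one]
  | succ n ih =>
    rw [pow_succ, v.ord_mul' (pow_ne_zero n hx) hx, ih]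
    push_cast
    ring

/-- `x ≠ 0` and `ord x = t`. -/
def Is (x : K) (t : ℚ) : Prop := x ≠ 0 ∧ v.ord x = t

/-- `x = 0` or `t ≤ ord x`. -/
def Ge (x : K) (t : ℚ) : Prop := x = 0 ∨ t ≤ v.ord x

/-- `x ≠ 0` and `ord x ≤ t`. -/
def Le (x : K) (t : ℚ) : Prop := x ≠ 0 ∧ v.ord x ≤ t

/-- `x = 0` or `t < ord x`. -/
def Gt (x : K) (t : ℚ) : Prop := x = 0 ∨ t < v.ord x

/-- `x ≠ 0` and `ord x < t`. -/
def Lt (x : K) (t : ℚ) : Prop := x ≠ 0 ∧ v.ord x < t

variable {v} {x y : K} {s t : ℚ}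

lemma is_ord (hx : x ≠ 0) : v.Is x (v.ord x) := ⟨hx, rfl⟩

lemma Is.ne_zero (h : v.Is x t) : x ≠ 0 := h.1

lemma Is.ord_eq (h : v.Is x t) : v.ord x = t := h.2

lemma Is.ge (h : v.Is x t) : v.Ge x t := Or.inr h.2.ge

lemma Is.le (h : v.Is x t) : v.Le x t := ⟨h.1, h.2.le⟩

lemma Is.congr (h : v.Is x t) (hs : t = s) : v.Is x s := hs ▸ h

lemma Is.unique (h : v.Is x t) (h' : v.Is x s) : t = s := by rw [← h.2, ← h'.2]

lemma Is.ge' (h : v.Is x t) (hs : s ≤ t) : v.Ge x s := Or.inr (by rw [h.2]; exact hs)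

lemma Is.le' (h : v.Is x t) (hs : t ≤ s) : v.Le x s := ⟨h.1, by rw [h.2]; exact hs⟩

lemma Is.gt (h : v.Is x t) (hs : s < t) : v.Gt x s := Or.inr (by rw [h.2]; exact hs)

lemma Is.lt (h : v.Is x t) (hs : t < s) : v.Lt x s := ⟨h.1, by rw [h.2]; exact hs⟩

lemma ge_zero' : v.Ge (0 : K) t := Or.inl rfl

lemma gt_zero' : v.Gt (0 : K) t := Or.inl rfl

lemma is_one : v.Is (1 : K) 0 := ⟨one_ne_zero, v.ord_one⟩

lemma Ge.mono (h : v.Ge x t) (hs : s ≤ t) : v.Ge x s := h.imp id (fun h => hs.trans h)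

lemma Gt.ge (h : v.Gt x t) : v.Ge x t := h.imp id le_of_lt

lemma Gt.mono (h : v.Gt x t) (hs : s ≤ t) : v.Gt x s := h.imp id (fun h => lt_of_le_of_lt hs h)

lemma Ge.gt (h : v.Ge x t) (hs : s < t) : v.Gt x s := h.imp id (fun h => lt_of_lt_of_le hs h)

lemma Le.mono (h : v.Le x t) (hs : t ≤ s) : v.Le x s := ⟨h.1, h.2.trans hs⟩

lemma Lt.le (h : v.Lt x t) : v.Le x t := ⟨h.1, h.2.le⟩

lemma Lt.ne_zero (h : v.Lt x t) : x ≠ 0 := h.1

lemma Le.ne_zero (h : v.Le x t) : x ≠ 0 := h.1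

lemma Le.is (h : v.Le x t) : v.Is x (v.ord x) := ⟨h.1, rfl⟩

lemma Lt.is (h : v.Lt x t) : v.Is x (v.ord x) := ⟨h.1, rfl⟩

/-- An exact order is incompatible with a strictly larger lower bound. -/
lemma Is.not_ge (h : v.Is x t) (h' : v.Ge x s) (hs : t < s) : False := by
  rcases h' with h' | h'
  · exact h.1 h'
  · rw [h.2] at h'
    linarith

lemma Is.not_gt (h : v.Is x t) (h' : v.Gt x s) (hs : t ≤ s) : False := by
  rcases h' with h' | h'
  · exact h.1 h'
  · rw [h.2] at h'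
    linarith

lemma Le.not_gt (h : v.Le x t) (h' : v.Gt x s) (hs : t ≤ s) : False := by
  rcases h' with h' | h'
  · exact h.1 h'
  · have := h.2
    linarith

lemma Le.not_ge (h : v.Le x t) (h' : v.Ge x s) (hs : t < s) : False := by
  rcases h' with h' | h'
  · exact h.1 h'
  · have := h.2
    linarith

lemma Lt.not_ge (h : v.Lt x t) (h' : v.Ge x s) (hs : t ≤ s) : False := by
  rcases h' with h' | h'
  · exact h.1 h'
  · have := h.2
    linarith

/-- trichotomy with respect to a threshold -/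
lemma le_or_gt (x : K) (t : ℚ) : v.Le x t ∨ v.Gt x t := by
  by_cases hx : x = 0
  · exact Or.inr (Or.inl hx)
  · rcases _root_.le_or_gt (v.ord x) t with h | h
    · exact Or.inl ⟨hx, h⟩
    · exact Or.inr (Or.inr h)

lemma lt_or_ge (x : K) (t : ℚ) : v.Lt x t ∨ v.Ge x t := by
  by_cases hx : x = 0
  · exact Or.inr (Or.inl hx)
  · rcases _root_.lt_or_ge (v.ord x) t with h | h
    · exact Or.inl ⟨hx, h⟩
    · exact Or.inr (Or.inr h)

lemma Is.neg (h : v.Is x t) : v.Is (-x) t := ⟨neg_ne_zero.mpr h.1, by rw [v.ord_neg, h.2]⟩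

lemma Ge.neg (h : v.Ge x t) : v.Ge (-x) t := by
  rcases h with h | h
  · exact Or.inl (by rw [h, neg_zero])
  · exact Or.inr (by rw [v.ord_neg]; exact h)

lemma Gt.neg (h : v.Gt x t) : v.Gt (-x) t := by
  rcases h with h | h
  · exact Or.inl (by rw [h, neg_zero])
  · exact Or.inr (by rw [v.ord_neg]; exact h)

lemma Le.neg (h : v.Le x t) : v.Le (-x) t := ⟨neg_ne_zero.mpr h.1, by rw [v.ord_neg]; exact h.2⟩

lemma Lt.neg (h : v.Lt x t) : v.Lt (-x) t := ⟨neg_ne_zero.mpr h.1, by rw [v.ord_neg]; exact h.2⟩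

lemma Is.mul (hx : v.Is x s) (hy : v.Is y t) : v.Is (x * y) (s + t) :=
  ⟨mul_ne_zero hx.1 hy.1, by rw [v.ord_mul' hx.1 hy.1, hx.2, hy.2]⟩

lemma Is.inv (hx : v.Is x s) : v.Is x⁻¹ (-s) := ⟨inv_ne_zero hx.1, by rw [v.ord_inv hx.1, hx.2]⟩

lemma Is.div (hx : v.Is x s) (hy : v.Is y t) : v.Is (x / y) (s - t) :=
  ⟨div_ne_zero hx.1 hy.1, by rw [v.ord_div hx.1 hy.1, hx.2, hy.2]⟩

lemma Is.pow (hx : v.Is x s) (n : ℕ) : v.Is (x ^ n) (n * s) :=
  ⟨pow_ne_zero n hx.1, by rw [v.ord_pow hx.1, hx.2]⟩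

lemma Is.sq (hx : v.Is x s) : v.Is (x ^ 2) (2 * s) := by
  have := hx.pow 2
  simpa using this

lemma Ge.mul (hx : v.Ge x s) (hy : v.Ge y t) : v.Ge (x * y) (s + t) := by
  rcases hx with hx | hx
  · exact Or.inl (by rw [hx, zero_mul])
  rcases hy with hy | hy
  · exact Or.inl (by rw [hy, mul_zero])
  by_cases hx0 : x = 0
  · exact Or.inl (by rw [hx0, zero_mul])
  by_cases hy0 : y = 0
  · exact Or.inl (by rw [hy0, mul_zero])
  exact Or.inr (by rw [v.ord_mul' hx0 hy0]; linarith)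

lemma Gt.mul_ge (hx : v.Gt x s) (hy : v.Ge y t) : v.Gt (x * y) (s + t) := by
  rcases hx with hx | hx
  · exact Or.inl (by rw [hx, zero_mul])
  rcases hy with hy | hy
  · exact Or.inl (by rw [hy, mul_zero])
  by_cases hx0 : x = 0
  · exact Or.inl (by rw [hx0, zero_mul])
  by_cases hy0 : y = 0
  · exact Or.inl (by rw [hy0, mul_zero])
  exact Or.inr (by rw [v.ord_mul' hx0 hy0]; linarith)

lemma Ge.mul_gt (hx : v.Ge x s) (hy : v.Gt y t) : v.Gt (x * y) (s + t) := by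
  rw [mul_comm, add_comm]
  exact hy.mul_ge hx

lemma Ge.pow (hx : v.Ge x s) (n : ℕ) : v.Ge (x ^ n) (n * s) := by
  induction n with
  | zero => simpa using is_one.ge
  | succ n ih =>
    rw [pow_succ]
    have := ih.mul hx
    convert this using 1
    push_cast
    ring

lemma Ge.sq (hx : v.Ge x s) : v.Ge (x ^ 2) (2 * s) := by
  have := hx.pow 2
  simpa using this

lemma Ge.div_is (hx : v.Ge x s) (hy : v.Is y t) : v.Ge (x / y) (s - t) := by
  rw [div_eq_mul_inv, sub_eq_add_neg]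
  exact hx.mul hy.inv.ge

lemma Gt.div_is (hx : v.Gt x s) (hy : v.Is y t) : v.Gt (x / y) (s - t) := by
  rw [div_eq_mul_inv, sub_eq_add_neg]
  exact hx.mul_ge hy.inv.ge

lemma Le.mul (hx : v.Le x s) (hy : v.Le y t) : v.Le (x * y) (s + t) :=
  ⟨mul_ne_zero hx.1 hy.1, by rw [v.ord_mul' hx.1 hy.1]; linarith [hx.2, hy.2]⟩

lemma Le.div_is (hx : v.Le x s) (hy : v.Is y t) : v.Le (x / y) (s - t) :=
  ⟨div_ne_zero hx.1 hy.1, by rw [v.ord_div hx.1 hy.1, hy.2]; linarith [hx.2]⟩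

lemma Ge.add (hx : v.Ge x t) (hy : v.Ge y t) : v.Ge (x + y) t := by
  by_cases hx0 : x = 0
  · rw [hx0, zero_add]; exact hy
  by_cases hy0 : y = 0
  · rw [hy0, add_zero]; exact hx
  by_cases hxy : x + y = 0
  · exact Or.inl hxy
  have hx' := hx.resolve_left hx0
  have hy' := hy.resolve_left hy0
  exact Or.inr ((le_min hx' hy').trans (v.ord_add' hx0 hy0 hxy))

lemma Ge.sub (hx : v.Ge x t) (hy : v.Ge y t) : v.Ge (x - y) t := by
  rw [sub_eq_add_neg]
  exact hx.add hy.neg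

lemma Gt.add (hx : v.Gt x t) (hy : v.Gt y t) : v.Gt (x + y) t := by
  by_cases hx0 : x = 0
  · rw [hx0, zero_add]; exact hy
  by_cases hy0 : y = 0
  · rw [hy0, add_zero]; exact hx
  by_cases hxy : x + y = 0
  · exact Or.inl hxy
  have hx' := hx.resolve_left hx0
  have hy' := hy.resolve_left hy0
  exact Or.inr (lt_of_lt_of_le (lt_min hx' hy') (v.ord_add' hx0 hy0 hxy))

lemma Gt.sub (hx : v.Gt x t) (hy : v.Gt y t) : v.Gt (x - y) t := by
  rw [sub_eq_add_neg]
  exact hx.add hy.neg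

/-- The dominant term determines the order of a sum. -/
lemma Is.add_gt (hx : v.Is x t) (hy : v.Gt y t) : v.Is (x + y) t := by
  by_cases hy0 : y = 0
  · rw [hy0, add_zero]; exact hx
  have hy' := hy.resolve_left hy0
  have hxy : x + y ≠ 0 := by
    intro h
    have : y = -x := by linear_combination h
    rw [this, v.ord_neg, hx.2] at hy'
    exact lt_irrefl _ hy'
  refine ⟨hxy, le_antisymm ?_ ?_⟩
  · -- x = (x + y) + (-y)
    have h1 := v.ord_add' hxy (neg_ne_zero.mpr hy0) (by rw [add_neg_cancel_right]; exact hx.1)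
    rw [add_neg_cancel_right, v.ord_neg, hx.2] at h1
    rcases min_le_iff.mp h1 with h | h
    · exact h
    · linarith
  · have h1 := v.ord_add' hx.1 hy0 hxy
    rw [hx.2] at h1
    have : min t (v.ord y) = t := min_eq_left hy'.le
    rw [this] at h1
    exact h1

lemma Is.add_gt' (hy : v.Is y t) (hx : v.Gt x t) : v.Is (x + y) t := by
  rw [add_comm]
  exact hy.add_gt hx

lemma Is.sub_gt (hx : v.Is x t) (hy : v.Gt y t) : v.Is (x - y) t := by
  rw [sub_eq_add_neg]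
  exact hx.add_gt hy.neg

lemma Is.sub_gt' (hy : v.Is y t) (hx : v.Gt x t) : v.Is (x - y) t := by
  rw [sub_eq_add_neg]
  exact hy.neg.add_gt' hx

/-- a sum of something of order `≤ t` and something of order `> t` has order `≤ t` -/
lemma Le.add_gt (hx : v.Le x t) (hy : v.Gt y t) : v.Le (x + y) t := by
  have h := (is_ord hx.1).add_gt (hy.mono hx.2)
  exact ⟨h.1, by rw [h.2]; exact hx.2⟩

lemma Lt.add_ge (hx : v.Lt x t) (hy : v.Ge y t) : v.Lt (x + y) t := by
  have h := (is_ord hx.1).add_gt (hy.gt hx.2)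
  exact ⟨h.1, by rw [h.2]; exact hx.2⟩

lemma Lt.sub_ge (hx : v.Lt x t) (hy : v.Ge y t) : v.Lt (x - y) t := by
  rw [sub_eq_add_neg]
  exact hx.add_ge hy.neg

/-- Natural number casts which are units. -/
lemma Is.natCast_mul {n : ℕ} (hn : v.Is (n : K) 0) (hx : v.Is x t) : v.Is ((n : K) * x) t := by
  have := hn.mul hx
  rwa [zero_add] at this

/-! ### Newton polygon of a quadratic -/

/-- Both roots have order `≥ s` if the sum has order `≥ s` and the product order `≥ 2s`. -/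
lemma np_ge {z₁ z₂ : K} (hS : v.Ge (z₁ + z₂) s) (hP : v.Ge (z₁ * z₂) (2 * s)) :
    v.Ge z₁ s ∧ v.Ge z₂ s := by
  have key : ∀ {a b : K}, v.Ge (a + b) s → v.Ge (a * b) (2 * s) → v.Ge a s := by
    intro a b hS hP
    by_contra hcon
    have ha0 : a ≠ 0 := fun h => hcon (Or.inl h)
    have ha : v.ord a < s := by
      by_contra h
      exact hcon (Or.inr (not_lt.mp h))
    have h1 : v.Is (a ^ 2) (2 * v.ord a) := (is_ord ha0).sq
    have h2 : a ^ 2 = (a + b) * a - a * b := by ring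
    have h3 : v.Ge ((a + b) * a) (s + v.ord a) := hS.mul (is_ord ha0).ge
    have h4 : v.Ge ((a + b) * a - a * b) (s + v.ord a) := h3.sub (hP.mono (by linarith))
    rw [← h2] at h4
    exact h1.not_ge h4 (by linarith)
  exact ⟨key hS hP, key (by rwa [add_comm]) (by rwa [mul_comm])⟩

/-- If the sum has exact order `s` and the product has order `≥ π > 2s`, one root has exact order
`s` and the other has order `≥ π - s`. -/
lemma np_is {z₁ z₂ : K} {π : ℚ} (hS : v.Is (z₁ + z₂) s) (hP : v.Ge (z₁ * z₂) π) (h : 2 * s < π) :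
    (v.Is z₁ s ∧ v.Ge z₂ (π - s)) ∨ (v.Is z₂ s ∧ v.Ge z₁ (π - s)) := by
  by_cases h1 : z₁ = 0
  · right
    rw [h1, zero_add] at hS
    exact ⟨hS, Or.inl h1⟩
  by_cases h2 : z₂ = 0
  · left
    rw [h2, add_zero] at hS
    exact ⟨hS, Or.inl h2⟩
  have hP' : π ≤ v.ord z₁ + v.ord z₂ := by
    rcases hP with hP | hP
    · exact absurd hP (mul_ne_zero h1 h2)
    · rwa [v.ord_mul' h1 h2] at hP
  rcases lt_trichotomy (v.ord z₁) (v.ord z₂) with hlt | heq | hgt
  · left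
    have := (is_ord h1).add_gt (Or.inr hlt : v.Gt z₂ (v.ord z₁))
    have hs : v.ord z₁ = s := this.unique hS
    exact ⟨⟨h1, hs⟩, Or.inr (by linarith)⟩
  · exfalso
    have := ((is_ord h1).ge).add ((is_ord h2).ge' heq.le)
    rcases this with h0 | h0
    · exact hS.1 h0
    · rw [hS.2] at h0
      linarith
  · right
    have := (is_ord h2).add_gt' (Or.inr hgt : v.Gt z₁ (v.ord z₂))
    have hs : v.ord z₂ = s := this.unique hS
    exact ⟨⟨h2, hs⟩, Or.inr (by linarith)⟩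

/-- Variant of `np_is` with exact order of the product. -/
lemma np_is_is {z₁ z₂ : K} {π : ℚ} (hS : v.Is (z₁ + z₂) s) (hP : v.Is (z₁ * z₂) π)
    (h : 2 * s < π) :
    (v.Is z₁ s ∧ v.Is z₂ (π - s)) ∨ (v.Is z₂ s ∧ v.Is z₁ (π - s)) := by
  have h1 : z₁ ≠ 0 := left_ne_zero_of_mul hP.1
  have h2 : z₂ ≠ 0 := right_ne_zero_of_mul hP.1
  have hπ : v.ord z₁ + v.ord z₂ = π := by rw [← v.ord_mul' h1 h2, hP.2]
  rcases np_is hS hP.ge h with ⟨ha, _⟩ | ⟨ha, _⟩
  · left
    exact ⟨ha, h2, by have := ha.2; linarith⟩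
  · right
    exact ⟨ha, h1, by have := ha.2; linarith⟩

/-- Both roots have order `≤ t`. -/
lemma np_le {z₁ z₂ : K} {π : ℚ} (hP : v.Is (z₁ * z₂) π) (hS : v.Ge (z₁ + z₂) s)
    (h1 : π ≤ 2 * t) (h2 : π - t ≤ s) : v.Le z₁ t ∧ v.Le z₂ t := by
  have key : ∀ {a b : K}, v.Is (a * b) π → v.Ge (a + b) s → v.Le a t := by
    intro a b hP hS
    have ha : a ≠ 0 := left_ne_zero_of_mul hP.1
    have hb : b ≠ 0 := right_ne_zero_of_mul hP.1
    have hπ : v.ord a + v.ord b = π := by rw [← v.ord_mul' ha hb, hP.2]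
    refine ⟨ha, ?_⟩
    by_contra hcon
    push Not at hcon
    rcases _root_.lt_or_ge (v.ord b) (v.ord a) with hlt | hge
    · have := (is_ord hb).add_gt' (Or.inr hlt : v.Gt a (v.ord b))
      exact this.not_ge hS (by linarith)
    · linarith
  exact ⟨key hP hS, key (by rwa [mul_comm]) (by rwa [add_comm])⟩

/-- Both roots have exact order `s` if the sum has order `≥ s` and the product exact order `2s`. -/
lemma np_eq {z₁ z₂ : K} (hS : v.Ge (z₁ + z₂) s) (hP : v.Is (z₁ * z₂) (2 * s)) :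
    v.Is z₁ s ∧ v.Is z₂ s := by
  obtain ⟨g₁, g₂⟩ := np_ge hS hP.ge
  have h1 : z₁ ≠ 0 := left_ne_zero_of_mul hP.1
  have h2 : z₂ ≠ 0 := right_ne_zero_of_mul hP.1
  have hπ : v.ord z₁ + v.ord z₂ = 2 * s := by rw [← v.ord_mul' h1 h2, hP.2]
  have g₁' := g₁.resolve_left h1
  have g₂' := g₂.resolve_left h2
  exact ⟨⟨h1, by linarith⟩, ⟨h2, by linarith⟩⟩

end QVal

end Fermat.Agent.S05Lib
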