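/-
S05 / task QVAL (helper9): a ℚ-valued additive valuation on `ℚ̄` attached to a valuation subring
lying over a prime `q`, with the inertia properties.
-/
import Mathlib
import Fermat.Prelude.Def_FLTPrelim_Ramification
import Fermat.Agent.Lib.S05.QVal

set_option autoImplicit false

namespace Fermat.Agent.S05Lib

open ValuationSubring
open scoped Pointwise

section General

variable {L : Type*} [Field L] (A : ValuationSubring L)

/-! ### The valuation of integers -/

theorem qv_valuation_intCast_le_one (n : ℤ) : A.valuation (n : L) ≤ 1 :=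
  (A.valuation_le_one_iff _).mpr (intCast_mem A n)

/-- An integer prime to `q` is a unit of `A`. -/
theorem qv_valuation_intCast_eq_one {q : ℕ} (hq : q.Prime) (hA : A.LiesOverPrime q) {n : ℤ}
    (hn : ¬ (q : ℤ) ∣ n) : A.valuation (n : L) = 1 := by
  have hqlt : A.valuation (q : L) < 1 := A.mem_nonunits_iff.mp hA
  refine le_antisymm (qv_valuation_intCast_le_one A n) ?_
  by_contra hlt
  push Not at hlt
  -- Bezout
  have hcop : IsCoprime (q : ℤ) n :=
    ((Nat.prime_iff_prime_int.mp hq).irreducible.coprime_iff_not_dvd).mpr hn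
  obtain ⟨a, b, hab⟩ := hcop
  have hcast : ((a : ℤ) : L) * (q : L) + ((b : ℤ) : L) * (n : L) = 1 := by
    have := congrArg (fun z : ℤ => (z : L)) hab
    simpa using this
  have h1 : A.valuation (((a : ℤ) : L) * (q : L)) < 1 := by
    rw [map_mul]
    calc A.valuation ((a : ℤ) : L) * A.valuation (q : L)
        ≤ 1 * A.valuation (q : L) := mul_le_mul_left (qv_valuation_intCast_le_one A a) _
      _ = A.valuation (q : L) := one_mul _
      _ < 1 := hqlt
  have h2 : A.valuation (((b : ℤ) : L) * (n : L)) < 1 := by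
    rw [map_mul]
    calc A.valuation ((b : ℤ) : L) * A.valuation (n : L)
        ≤ 1 * A.valuation (n : L) := mul_le_mul_left (qv_valuation_intCast_le_one A b) _
      _ = A.valuation (n : L) := one_mul _
      _ < 1 := hlt
  have h3 : A.valuation (1 : L) < 1 := by
    rw [← hcast]
    exact lt_of_le_of_lt (Valuation.map_add _ _ _) (max_lt h1 h2)
  rw [map_one] at h3
  exact lt_irrefl _ h3

/-- The valuation of a nonzero integer is a power of the valuation of `q`. -/
theorem qv_valuation_intCast_eq_pow {q : ℕ} (hq : q.Prime) (hA : A.LiesOverPrime q) {n : ℤ}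
    (hn : n ≠ 0) : ∃ k : ℕ, A.valuation (n : L) = A.valuation (q : L) ^ k := by
  have hfin : FiniteMultiplicity (q : ℤ) n :=
    Int.finiteMultiplicity_iff.mpr ⟨by simpa using hq.ne_one, hn⟩
  obtain ⟨c, hc, hqc⟩ := hfin.exists_eq_pow_mul_and_not_dvd
  refine ⟨multiplicity (q : ℤ) n, ?_⟩
  have : (n : L) = (q : L) ^ multiplicity (q : ℤ) n * (c : L) := by
    have := congrArg (fun z : ℤ => (z : L)) hc
    simpa using this
  rw [this, map_mul, map_pow, qv_valuation_intCast_eq_one A hq hA hqc, mul_one]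

/-- **Key lemma.** For `x ≠ 0` algebraic over `ℤ`, some positive power of `w(x)` is an integral
power of `w(q)`. -/
theorem qv_exists_pow_eq [CharZero L] {q : ℕ} (hq : q.Prime) (hA : A.LiesOverPrime q) {x : L}
    (hx : IsAlgebraic ℤ x) (hx0 : x ≠ 0) :
    ∃ m : ℕ, 0 < m ∧ ∃ s : ℤ, A.valuation x ^ m = A.valuation (q : L) ^ s := by
  classical
  obtain ⟨p, hp0, hp⟩ := hx
  set w := A.valuation with hw
  have hq0 : (q : L) ≠ 0 := by exact_mod_cast hq.ne_zero
  have hπ0 : w (q : L) ≠ 0 := (Valuation.ne_zero_iff _).mpr hq0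
  have hwx0 : w x ≠ 0 := (Valuation.ne_zero_iff _).mpr hx0
  -- the terms
  set term : ℕ → L := fun i => ((p.coeff i : ℤ) : L) * x ^ i with hterm
  have hsum : ∑ i ∈ p.support, term i = 0 := by
    rw [← hp, Polynomial.aeval_def, Polynomial.eval₂_eq_sum, Polynomial.sum_def]
    simp [hterm]
  have hne : p.support.Nonempty := Polynomial.support_nonempty.mpr hp0
  have hterm0 : ∀ i ∈ p.support, term i ≠ 0 := by
    intro i hi
    have hc : p.coeff i ≠ 0 := Polynomial.mem_support_iff.mp hi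
    exact mul_ne_zero (by exact_mod_cast hc) (pow_ne_zero _ hx0)
  obtain ⟨i₀, hi₀, hmax⟩ := Finset.exists_max_image p.support (fun i => w (term i)) hne
  -- another index attains the maximum
  have hex : ∃ j ∈ p.support, j ≠ i₀ ∧ w (term j) = w (term i₀) := by
    by_contra hno
    push Not at hno
    have hlt : ∀ j ∈ p.support.erase i₀, w (term j) < w (term i₀) := by
      intro j hj
      obtain ⟨hji, hjs⟩ := Finset.mem_erase.mp hj
      exact lt_of_le_of_ne (hmax j hjs) (hno j hjs hji)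
    have hg : w (term i₀) ≠ 0 := (Valuation.ne_zero_iff _).mpr (hterm0 i₀ hi₀)
    have h1 : w (∑ j ∈ p.support.erase i₀, term j) < w (term i₀) := Valuation.map_sum_lt w hg hlt
    have h2 : w (term i₀ + ∑ j ∈ p.support.erase i₀, term j) = w (term i₀) :=
      Valuation.map_add_eq_of_lt_left w h1
    rw [Finset.add_sum_erase _ _ hi₀, hsum, map_zero] at h2
    exact hg h2.symm
  obtain ⟨j, hj, hji, hjeq⟩ := hex
  have hcj : p.coeff j ≠ 0 := Polynomial.mem_support_iff.mp hj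
  have hci : p.coeff i₀ ≠ 0 := Polynomial.mem_support_iff.mp hi₀
  obtain ⟨a, ha⟩ := qv_valuation_intCast_eq_pow A hq hA hcj
  obtain ⟨b, hb⟩ := qv_valuation_intCast_eq_pow A hq hA hci
  simp only [hterm, map_mul, map_pow] at hjeq
  rw [← hw] at ha hb
  rw [ha, hb] at hjeq
  -- hjeq : π ^ a * w x ^ j = π ^ b * w x ^ i₀
  rcases lt_or_gt_of_ne hji with hlt | hgt
  · -- j < i₀
    refine ⟨i₀ - j, Nat.sub_pos_of_lt hlt, (a : ℤ) - b, ?_⟩
    have hpj : w x ^ j ≠ 0 := pow_ne_zero _ hwx0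
    have hpb : w (q : L) ^ b ≠ 0 := pow_ne_zero _ hπ0
    rw [zpow_sub₀ hπ0, zpow_natCast, zpow_natCast, eq_div_iff hpb]
    have : w x ^ i₀ = w x ^ (i₀ - j) * w x ^ j := by
      rw [← pow_add, Nat.sub_add_cancel hlt.le]
    rw [this] at hjeq
    apply mul_right_cancel₀ hpj
    rw [hjeq]; ac_rfl
  · -- i₀ < j
    refine ⟨j - i₀, Nat.sub_pos_of_lt hgt, (b : ℤ) - a, ?_⟩
    have hpi : w x ^ i₀ ≠ 0 := pow_ne_zero _ hwx0
    have hpa : w (q : L) ^ a ≠ 0 := pow_ne_zero _ hπ0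
    rw [zpow_sub₀ hπ0, zpow_natCast, zpow_natCast, eq_div_iff hpa]
    have : w x ^ j = w x ^ (j - i₀) * w x ^ i₀ := by
      rw [← pow_add, Nat.sub_add_cancel hgt.le]
    rw [this] at hjeq
    apply mul_right_cancel₀ hpi
    rw [← hjeq]; ac_rfl

/-! ### The order function -/

/-- `ord x = s / m` where `w(x)^m = w(q)^s`, `m > 0` (junk value `0` if no such pair exists). -/
noncomputable def qvOrd (q : ℕ) (x : L) : ℚ := by
  classical
  exact if h : ∃ m : ℕ, 0 < m ∧ ∃ s : ℤ, A.valuation x ^ m = A.valuation (q : L) ^ s then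
    ((Classical.choose (Classical.choose_spec h).2 : ℤ) : ℚ) / ((Classical.choose h : ℕ) : ℚ)
  else 0

section Ord

variable {q : ℕ} (hq : q.Prime) (hA : A.LiesOverPrime q)

variable [CharZero L]

include hq hA in
theorem qv_pi_pos : 0 < A.valuation (q : L) ∧ A.valuation (q : L) < 1 := by
  refine ⟨?_, A.mem_nonunits_iff.mp hA⟩
  have hq0 : (q : L) ≠ 0 := by exact_mod_cast hq.ne_zero
  exact lt_of_le_of_ne zero_le ((Valuation.ne_zero_iff _).mpr hq0).symm

include hq hA in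
/-- `ord x = s / m` for ANY pair with `w(x)^m = w(q)^s`, `m > 0`. -/
theorem qvOrd_eq {x : L} {m : ℕ} {s : ℤ} (hm : 0 < m)
    (h : A.valuation x ^ m = A.valuation (q : L) ^ s) : qvOrd A q x = (s : ℚ) / (m : ℚ) := by
  classical
  obtain ⟨hπ0, hπ1⟩ := qv_pi_pos A hq hA
  have hex : ∃ m : ℕ, 0 < m ∧ ∃ s : ℤ, A.valuation x ^ m = A.valuation (q : L) ^ s :=
    ⟨m, hm, s, h⟩
  unfold qvOrd
  rw [dif_pos hex]
  set m' := Classical.choose hex with hm'
  have hm'pos : 0 < m' := (Classical.choose_spec hex).1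
  set s' := Classical.choose (Classical.choose_spec hex).2 with hs'
  have h' : A.valuation x ^ m' = A.valuation (q : L) ^ s' :=
    Classical.choose_spec (Classical.choose_spec hex).2
  -- compare
  have hcmp : A.valuation (q : L) ^ (s * m') = A.valuation (q : L) ^ (s' * m) := by
    rw [zpow_mul, zpow_mul, ← h, ← h', zpow_natCast, zpow_natCast, ← pow_mul, ← pow_mul, mul_comm]
  have hinj := zpow_right_injective₀ hπ0 hπ1.ne hcmp
  have hmq : (m : ℚ) ≠ 0 := by exact_mod_cast hm.ne'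
  have hm'q : (m' : ℚ) ≠ 0 := by exact_mod_cast hm'pos.ne'
  rw [div_eq_div_iff hm'q hmq]
  have : ((s' * m : ℤ) : ℚ) = ((s * m' : ℤ) : ℚ) := by rw [hinj]
  push_cast at this
  linarith

variable (halg : ∀ x : L, IsAlgebraic ℤ x)

include hq hA halg in
theorem qv_le_iff {x y : L} (hx : x ≠ 0) (hy : y ≠ 0) :
    A.valuation x ≤ A.valuation y ↔ qvOrd A q y ≤ qvOrd A q x := by
  obtain ⟨hπ0, hπ1⟩ := qv_pi_pos A hq hA
  obtain ⟨m, hm, s, hs⟩ := qv_exists_pow_eq A hq hA (halg x) hx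
  obtain ⟨m', hm', s', hs'⟩ := qv_exists_pow_eq A hq hA (halg y) hy
  rw [qvOrd_eq A hq hA hm hs, qvOrd_eq A hq hA hm' hs']
  have hmq : (0 : ℚ) < m := by exact_mod_cast hm
  have hm'q : (0 : ℚ) < m' := by exact_mod_cast hm'
  rw [div_le_div_iff₀ hm'q hmq]
  have hM : m * m' ≠ 0 := (Nat.mul_pos hm hm').ne'
  rw [← pow_le_pow_iff_left₀ zero_le zero_le hM]
  have e1 : A.valuation x ^ (m * m') = A.valuation (q : L) ^ (s * m') := by
    rw [pow_mul, hs, zpow_mul, zpow_natCast]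
  have e2 : A.valuation y ^ (m * m') = A.valuation (q : L) ^ (s' * m) := by
    rw [mul_comm, pow_mul, hs', zpow_mul, zpow_natCast]
  rw [e1, e2, zpow_le_zpow_iff_right_of_lt_one₀ hπ0 hπ1]
  constructor
  · intro h
    have : ((s' * m : ℤ) : ℚ) ≤ ((s * m' : ℤ) : ℚ) := by exact_mod_cast h
    push_cast at this
    linarith
  · intro h
    have : ((s' * m : ℤ) : ℚ) ≤ ((s * m' : ℤ) : ℚ) := by push_cast; linarith
    exact_mod_cast this

include hq hA halg in
theorem qv_lt_iff {x y : L} (hx : x ≠ 0) (hy : y ≠ 0) :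
    A.valuation x < A.valuation y ↔ qvOrd A q y < qvOrd A q x := by
  rw [← not_le, ← not_le, qv_le_iff A hq hA halg hy hx]

include hq hA in
theorem qvOrd_one : qvOrd A q (1 : L) = 0 := by
  have := qvOrd_eq A hq hA (x := (1 : L)) (m := 1) (s := 0) one_pos (by simp)
  simpa using this

include hq hA in
theorem qvOrd_q : qvOrd A q (q : L) = 1 := by
  have := qvOrd_eq A hq hA (x := (q : L)) (m := 1) (s := 1) one_pos (by simp)
  simpa using this

include hq hA halg in
theorem qvOrd_mul {x y : L} (hx : x ≠ 0) (hy : y ≠ 0) :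
    qvOrd A q (x * y) = qvOrd A q x + qvOrd A q y := by
  obtain ⟨m, hm, s, hs⟩ := qv_exists_pow_eq A hq hA (halg x) hx
  obtain ⟨m', hm', s', hs'⟩ := qv_exists_pow_eq A hq hA (halg y) hy
  obtain ⟨hπ0, -⟩ := qv_pi_pos A hq hA
  have e : A.valuation (x * y) ^ (m * m') = A.valuation (q : L) ^ (s * m' + s' * m) := by
    rw [map_mul, mul_pow, pow_mul, hs, mul_comm m m', pow_mul, hs', zpow_add₀ hπ0.ne',
      zpow_mul, zpow_mul, zpow_natCast, zpow_natCast]
  rw [qvOrd_eq A hq hA hm hs, qvOrd_eq A hq hA hm' hs', qvOrd_eq A hq hA (Nat.mul_pos hm hm') e]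
  have hmq : (m : ℚ) ≠ 0 := by exact_mod_cast hm.ne'
  have hm'q : (m' : ℚ) ≠ 0 := by exact_mod_cast hm'.ne'
  push_cast
  field_simp

include hq hA halg in
theorem qvOrd_add {x y : L} (hx : x ≠ 0) (hy : y ≠ 0) (hxy : x + y ≠ 0) :
    min (qvOrd A q x) (qvOrd A q y) ≤ qvOrd A q (x + y) := by
  have h := Valuation.map_add A.valuation x y
  rcases le_max_iff.mp h with h1 | h1
  · exact (min_le_left _ _).trans ((qv_le_iff A hq hA halg hxy hx).mp h1)
  · exact (min_le_right _ _).trans ((qv_le_iff A hq hA halg hxy hy).mp h1)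

/-- The `ℚ`-valued valuation attached to `A`. -/
noncomputable def qvalOf : QVal L where
  ord := qvOrd A q
  ord_mul' := fun hx hy => qvOrd_mul A hq hA halg hx hy
  ord_add' := fun hx hy hxy => qvOrd_add A hq hA halg hx hy hxy

include hq hA halg in
theorem qv_mem_iff (x : L) : x ∈ A ↔ x = 0 ∨ 0 ≤ qvOrd A q x := by
  by_cases hx : x = 0
  · subst hx; simp
  · rw [← A.valuation_le_one_iff, ← map_one A.valuation,
      qv_le_iff A hq hA halg hx one_ne_zero, qvOrd_one A hq hA]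
    simp [hx]

include hq hA in
theorem qvOrd_intCast {n : ℤ} (hn : ¬ (q : ℤ) ∣ n) : qvOrd A q ((n : ℤ) : L) = 0 := by
  have h1 := qv_valuation_intCast_eq_one A hq hA hn
  have := qvOrd_eq A hq hA (x := ((n : ℤ) : L)) (m := 1) (s := 0) one_pos (by simp [h1])
  simpa using this

end Ord

/-! ### Inertia -/

section Inertia

variable [Algebra ℚ L]

/-- Elements of the decomposition group preserve `A`. -/
theorem qv_decomp_mem {σ : L ≃ₐ[ℚ] L} (hσ : σ ∈ A.decompositionSubgroup ℚ) {x : L} (hx : x ∈ A) :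
    σ x ∈ A := by
  have h1 : σ • A = A := hσ
  have h2 : σ • x ∈ σ • A := ValuationSubring.smul_mem_pointwise_smul σ x A hx
  rw [h1] at h2
  exact h2

theorem qv_decomp_valuation_eq_one {σ : L ≃ₐ[ℚ] L} (hσ : σ ∈ A.decompositionSubgroup ℚ) {u : L}
    (hu : A.valuation u = 1) : A.valuation (σ u) = 1 := by
  have hu0 : u ≠ 0 := by
    intro h0
    rw [h0, map_zero] at hu
    exact zero_ne_one hu
  have h1 : u ∈ A := (A.valuation_le_one_iff u).mp hu.le
  have h2 : u⁻¹ ∈ A := (A.valuation_le_one_iff _).mp (by rw [map_inv₀, hu, inv_one])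
  have h3 : A.valuation (σ u) ≤ 1 := (A.valuation_le_one_iff _).mpr (qv_decomp_mem A hσ h1)
  have h4 : A.valuation (σ u⁻¹) ≤ 1 := (A.valuation_le_one_iff _).mpr (qv_decomp_mem A hσ h2)
  rw [map_inv₀, map_inv₀] at h4
  have hσu0 : A.valuation (σ u) ≠ 0 :=
    (Valuation.ne_zero_iff _).mpr ((map_ne_zero_iff σ σ.injective).mpr hu0)
  have h5 : 1 ≤ A.valuation (σ u) := (inv_le_one₀ (lt_of_le_of_ne zero_le hσu0.symm)).mp h4
  exact le_antisymm h3 h5

theorem qv_mem_inertiaSubgroupIn {σ : L ≃ₐ[ℚ] L} (hσ : σ ∈ A.inertiaSubgroupIn ℚ) :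
    σ ∈ A.decompositionSubgroup ℚ ∧
      ∀ x : L, x ∈ A → A.valuation (σ x - x) < 1 := by
  obtain ⟨τ, hτ, rfl⟩ := Subgroup.mem_map.mp hσ
  refine ⟨τ.2, fun x hx => ?_⟩
  have hker : MulSemiringAction.toRingAut (A.decompositionSubgroup ℚ) (IsLocalRing.ResidueField A) τ
      = 1 := hτ
  have hres : τ • (IsLocalRing.residue A ⟨x, hx⟩) = IsLocalRing.residue A ⟨x, hx⟩ := by
    have := congrArg (fun f : RingAut (IsLocalRing.ResidueField A) =>
      f (IsLocalRing.residue A ⟨x, hx⟩)) hker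
    simpa using this
  rw [← IsLocalRing.ResidueField.residue_smul] at hres
  have hmem : (τ • (⟨x, hx⟩ : A)) - ⟨x, hx⟩ ∈ IsLocalRing.maximalIdeal A := by
    rw [← Ideal.Quotient.eq]
    exact hres
  have := (A.valuation_lt_one_iff _).mp hmem
  exact this

variable {q : ℕ} (hq : q.Prime) (hA : A.LiesOverPrime q) [CharZero L]
  (halg : ∀ x : L, IsAlgebraic ℤ x)

include hq hA halg in
theorem qv_inertia_ord {σ : L ≃ₐ[ℚ] L} (hσ : σ ∈ A.inertiaSubgroupIn ℚ) (x : L) :
    qvOrd A q (σ x) = qvOrd A q x := by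
  obtain ⟨hdec, -⟩ := qv_mem_inertiaSubgroupIn A hσ
  by_cases hx : x = 0
  · subst hx; simp
  obtain ⟨hπ0, -⟩ := qv_pi_pos A hq hA
  obtain ⟨m, hm, s, hs⟩ := qv_exists_pow_eq A hq hA (halg x) hx
  rw [qvOrd_eq A hq hA hm hs]
  have hq0 : (q : L) ≠ 0 := by exact_mod_cast hq.ne_zero
  -- the unit u = x^m / q^s
  set u : L := x ^ m / (q : L) ^ s with hu
  have hwu : A.valuation u = 1 := by
    rw [hu, map_div₀, map_pow, map_zpow₀, hs]
    exact div_self (zpow_ne_zero _ hπ0.ne')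
  have hσu := qv_decomp_valuation_eq_one A hdec hwu
  have hσu' : σ u = (σ x) ^ m / (q : L) ^ s := by
    rw [hu, map_div₀, map_pow, map_zpow₀, map_natCast]
  rw [hσu', map_div₀, map_pow, map_zpow₀, div_eq_one_iff_eq (zpow_ne_zero _ hπ0.ne')] at hσu
  exact qvOrd_eq A hq hA hm hσu

include hq hA halg in
theorem qv_inertia_sub {σ : L ≃ₐ[ℚ] L} (hσ : σ ∈ A.inertiaSubgroupIn ℚ) {x : L} (hx : x ∈ A) :
    σ x = x ∨ 0 < qvOrd A q (σ x - x) := by
  obtain ⟨-, hlt⟩ := qv_mem_inertiaSubgroupIn A hσ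
  by_cases h0 : σ x - x = 0
  · left; exact sub_eq_zero.mp h0
  · right
    have := hlt x hx
    rw [← map_one A.valuation, qv_lt_iff A hq hA halg h0 one_ne_zero, qvOrd_one A hq hA] at this
    exact this

end Inertia

end General

/-- every element of `ℚ̄` is algebraic over `ℤ` -/
theorem qv_isAlgebraic_int_qbar (x : AlgebraicClosure ℚ) : IsAlgebraic ℤ x := by
  have h : IsAlgebraic ℚ x := (AlgebraicClosure.isAlgebraic ℚ).isAlgebraic x
  exact (IsFractionRing.isAlgebraic_iff ℤ ℚ (AlgebraicClosure ℚ)).mpr h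

/-- **S05 / QVAL.** The `ℚ`-valued valuation on `ℚ̄` attached to a valuation subring over `q`. -/
theorem exists_qval_of_liesOver (A : ValuationSubring (AlgebraicClosure ℚ)) {q : ℕ} (hq : q.Prime)
    (hA : A.LiesOverPrime q) :
    ∃ v : QVal (AlgebraicClosure ℚ),
      (∀ x, x ∈ A ↔ x = 0 ∨ 0 ≤ v.ord x) ∧
      (∀ n : ℤ, ¬ (q : ℤ) ∣ n → v.ord ((n : ℤ) : AlgebraicClosure ℚ) = 0) ∧
      (0 < v.ord ((q : ℕ) : AlgebraicClosure ℚ)) ∧
      (∀ σ ∈ A.inertiaSubgroupIn ℚ, ∀ x, v.ord (σ x) = v.ord x) ∧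
      (∀ σ ∈ A.inertiaSubgroupIn ℚ, ∀ x, x ∈ A → σ x = x ∨ 0 < v.ord (σ x - x)) := by
  refine ⟨qvalOf A hq hA qv_isAlgebraic_int_qbar, ?_, ?_, ?_, ?_, ?_⟩
  · exact fun x => qv_mem_iff A hq hA qv_isAlgebraic_int_qbar x
  · exact fun n hn => qvOrd_intCast A hq hA hn
  · show 0 < qvOrd A q ((q : ℕ) : AlgebraicClosure ℚ)
    rw [qvOrd_q A hq hA]; exact one_pos
  · exact fun σ hσ x => qv_inertia_ord A hq hA qv_isAlgebraic_int_qbar hσ x
  · exact fun σ hσ x hx => qv_inertia_sub A hq hA qv_isAlgebraic_int_qbar hσ hx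

end Fermat.Agent.S05Lib
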