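import Fermat.Agent.Lib.S05.KernelReduction

/-!
# Two integral points with the same nonsingular reduction differ by an element of `E₁` (S05, part B)
-/

set_option autoImplicit false
set_option linter.unusedSectionVars false

open WeierstrassCurve WeierstrassCurve.Affine

namespace Fermat.Agent.S05Lib

variable {K : Type*} [Field K] [DecidableEq K] {v : QVal K} {W : WeierstrassCurve K} {a b : K}

lemma QVal.ge_of_sq_ge {y : K} (h : v.Ge (y ^ 2) 0) : v.Ge y 0 := by
  by_cases hy : y = 0
  · exact Or.inl hy
  · rcases h with h | h
    · exact absurd h (pow_ne_zero 2 hy)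
    · rw [v.ord_pow hy] at h
      push_cast at h
      exact Or.inr (by linarith)

/-- integrality of `y` for an integral `x` -/
lemma y_integral (hW : IsLeg W a b) (ha : v.Ge a 0) (hb : v.Ge b 0) {x y : K}
    (h : W.toAffine.Nonsingular x y) (hx : v.Ge x 0) : v.Ge y 0 := by
  apply QVal.ge_of_sq_ge
  rw [hW.eq_of_nonsingular h]
  have h1 : v.Ge (x ^ 3) 0 := by simpa using hx.pow 3
  have h2 : v.Ge (a * x ^ 2) 0 := by simpa using ha.mul (hx.pow 2)
  have h3 : v.Ge (b * x) 0 := by simpa using hb.mul hx
  exact (h1.add h2).add h3

/-- **Part B.** If `P = (x, y)` is integral with nonsingular reduction and `P' = (x', y')` is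
congruent to `P` modulo the maximal ideal, then `P' - P` lies in the kernel of reduction. -/
theorem exists_inE_sub_of_close (hW : IsLeg W a b) (ha : v.Ge a 0) (hb : v.Ge b 0)
    (h2 : v.Is (2 : K) 0) {x y x' y' : K} (h : W.toAffine.Nonsingular x y)
    (h' : W.toAffine.Nonsingular x' y') (hx : v.Ge x 0)
    (hns : v.Is y 0 ∨ v.Is (3 * x ^ 2 + 2 * a * x + b) 0)
    (hxx : v.Gt (x' - x) 0) (hyy : v.Gt (y' - y) 0) :
    ∃ τ : ℚ, 0 < τ ∧ InE v τ (Point.some x' y' h' - Point.some x y h) := by
  have hy : v.Ge y 0 := y_integral hW ha hb h hx
  have hx' : v.Ge x' 0 := by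
    have : x' = x + (x' - x) := by ring
    rw [this]
    exact hx.add hxx.ge
  by_cases hxe : x' = x
  · subst hxe
    by_cases hye : y' = y
    · subst hye
      exact ⟨1, one_pos, by rw [sub_self]; trivial⟩
    · -- `y' = -y`
      have hyn : y' = -y := by
        rcases Y_eq_of_X_eq h'.1 h.1 rfl with e | e
        · exact absurd e hye
        · rwa [hW.negY_eq] at e
      subst hyn
      have hy0 : y ≠ 0 := by
        intro h0
        apply hye
        rw [h0, neg_zero]
      have hygt : v.Gt y 0 := by
        have e : y = -((-y - y) / 2) := by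
          have := h2.1
          field_simp
          ring
        rw [e]
        have := (hyy.div_is h2).neg
        simpa using this
      have hg : v.Is (3 * x' ^ 2 + 2 * a * x' + b) 0 := by
        rcases hns with h0 | h0
        · exact absurd hygt (fun hh => h0.not_gt hh le_rfl)
        · exact h0
      obtain ⟨hn, en⟩ := hW.neg_some h
      have e1 : Point.some x' (-y) h' = -Point.some x' y h := by rw [en]
      have e2 : -Point.some x' y h - Point.some x' y h =
          -(Point.some x' y h + Point.some x' y h) := by abel
      rw [e1, e2]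
      obtain ⟨w, hw, e⟩ := hW.add_self_of_Y_ne_zero h2.1 h hy0
      rw [e]
      have hyo : v.Is y (v.ord y) := QVal.is_ord hy0
      have hypos : 0 < v.ord y := by
        rcases hygt with h0 | h0
        · exact absurd h0 hy0
        · exact h0
      have hl : v.Is ((3 * x' ^ 2 + 2 * a * x' + b) / (2 * y)) (-v.ord y) := by
        have := hg.div (h2.mul hyo)
        convert this using 1
        ring
      have hl2 := hl.sq
      have hrest : v.Gt (a + 2 * x') (2 * -v.ord y) := by
        have : v.Ge (a + 2 * x') 0 := ha.add (by simpa using h2.ge.mul hx')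
        exact this.gt (by linarith)
      have hz : v.Is (((3 * x' ^ 2 + 2 * a * x' + b) / (2 * y)) ^ 2 - a - 2 * x') (2 * -v.ord y) := by
        have := hl2.sub_gt hrest
        convert this using 1
        ring
      refine ⟨2 * v.ord y, by linarith, ?_⟩
      apply InE.neg hW
      rw [inE_some]
      exact hz.le' (by linarith)
  · -- `x' ≠ x`
    obtain ⟨hn, en⟩ := hW.neg_some h
    rw [sub_eq_add_neg, en]
    obtain ⟨w, hw, e⟩ := hW.add_of_X_ne h' hn hxe
    rw [e]
    have hd : x' - x ≠ 0 := sub_ne_zero.mpr hxe
    have hdo : v.Is (x' - x) (v.ord (x' - x)) := QVal.is_ord hd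
    have hdpos : 0 < v.ord (x' - x) := by
      rcases hxx with h0 | h0
      · exact absurd h0 hd
      · exact h0
    -- the slope has negative order
    have hl : ∃ δ : ℚ, 0 < δ ∧ v.Is ((y' - -y) / (x' - x)) (-δ) := by
      by_cases hy0 : v.Is y 0
      · refine ⟨v.ord (x' - x), hdpos, ?_⟩
        have hnum : v.Is (y' - -y) 0 := by
          have e : y' - -y = 2 * y + (y' - y) := by ring
          rw [e]
          have : v.Is (2 * y) 0 := by simpa using h2.mul hy0
          exact this.add_gt hyy
        have := hnum.div hdo
        convert this using 1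
        ring
      · have hg : v.Is (3 * x ^ 2 + 2 * a * x + b) 0 := hns.resolve_left hy0
        have q := hW.eq_of_nonsingular h
        have q' := hW.eq_of_nonsingular h'
        have hG : v.Is (x' ^ 2 + x' * x + x ^ 2 + a * (x' + x) + b) 0 := by
          have e : x' ^ 2 + x' * x + x ^ 2 + a * (x' + x) + b =
              (3 * x ^ 2 + 2 * a * x + b) + (x' - x) * (x' + 2 * x + a) := by ring
          rw [e]
          apply hg.add_gt
          have : v.Ge (x' + 2 * x + a) 0 := (hx'.add (by simpa using h2.ge.mul hx)).add ha
          have := hxx.mul_ge this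
          simpa using this
        have hid : (y' - -y) * (y' - y) =
            (x' - x) * (x' ^ 2 + x' * x + x ^ 2 + a * (x' + x) + b) := by
          linear_combination q' - q
        have hyd : y' - y ≠ 0 := by
          intro h0
          rw [h0, mul_zero] at hid
          exact (mul_ne_zero hd hG.1) hid.symm
        have hydpos : 0 < v.ord (y' - y) := by
          rcases hyy with h0 | h0
          · exact absurd h0 hyd
          · exact h0
        refine ⟨v.ord (y' - y), hydpos, ?_⟩
        have e : (y' - -y) / (x' - x) =
            (x' ^ 2 + x' * x + x ^ 2 + a * (x' + x) + b) / (y' - y) := by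
          rw [div_eq_div_iff hd hyd]
          linear_combination hid
        rw [e]
        have := hG.div (QVal.is_ord (v := v) hyd)
        convert this using 1
        ring
    obtain ⟨δ, hδ, hl⟩ := hl
    have hl2 := hl.sq
    have hrest : v.Gt (a + x' + x) (2 * -δ) := by
      have : v.Ge (a + x' + x) 0 := (ha.add hx').add hx
      exact this.gt (by linarith)
    have hz : v.Is (((y' - -y) / (x' - x)) ^ 2 - a - x' - x) (2 * -δ) := by
      have := hl2.sub_gt hrest
      convert this using 1
      ring
    refine ⟨2 * δ, by linarith, ?_⟩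
    rw [inE_some]
    exact hz.le' (by linarith)

end Fermat.Agent.S05Lib
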