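import Mathlib

/-!
# Curves `y² = x³ + a x² + b x`: explicit addition formulas (S05)

For a Weierstrass curve with `a₁ = a₃ = a₆ = 0` we record the symmetric identities
`X(P+Q) + X(P-Q) = 2((x₁+x₂)(x₁x₂+b) + 2a x₁x₂)/(x₁-x₂)²`,
`X(P+Q) X(P-Q) = (x₁x₂-b)²/(x₁-x₂)²` and the duplication formula.
-/

set_option autoImplicit false

open WeierstrassCurve WeierstrassCurve.Affine

namespace Fermat.Agent.S05Lib

variable {K : Type*} [Field K]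

/-- `W` is the curve `y² = x³ + a x² + b x`. -/
structure IsLeg (W : WeierstrassCurve K) (a b : K) : Prop where
  a₁ : W.a₁ = 0
  a₂ : W.a₂ = a
  a₃ : W.a₃ = 0
  a₄ : W.a₄ = b
  a₆ : W.a₆ = 0

namespace IsLeg

variable {W : WeierstrassCurve K} {a b : K} (hW : IsLeg W a b)
include hW

lemma equation_iff (x y : K) : W.toAffine.Equation x y ↔ y ^ 2 = x ^ 3 + a * x ^ 2 + b * x := by
  rw [Affine.equation_iff, hW.a₁, hW.a₂, hW.a₃, hW.a₄, hW.a₆]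
  constructor <;> intro h <;> linear_combination h

lemma negY_eq (x y : K) : W.toAffine.negY x y = -y := by
  simp [Affine.negY, hW.a₁, hW.a₃]

lemma eq_of_nonsingular {x y : K} (h : W.toAffine.Nonsingular x y) :
    y ^ 2 = x ^ 3 + a * x ^ 2 + b * x := (hW.equation_iff x y).mp h.1

lemma neg_some {x y : K} (h : W.toAffine.Nonsingular x y) :
    ∃ h', -(Point.some x y h) = Point.some x (-y) h' := by
  refine ⟨by rw [← hW.negY_eq x y]; exact (nonsingular_neg ..).mpr h, ?_⟩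
  rw [Point.neg_some]
  simp only [hW.negY_eq]

variable [DecidableEq K]

/-- addition of two points with distinct `x`-coordinates -/
lemma add_of_X_ne {x₁ y₁ x₂ y₂ : K} (h₁ : W.toAffine.Nonsingular x₁ y₁)
    (h₂ : W.toAffine.Nonsingular x₂ y₂) (hx : x₁ ≠ x₂) :
    ∃ w h, Point.some x₁ y₁ h₁ + Point.some x₂ y₂ h₂ =
      Point.some (((y₁ - y₂) / (x₁ - x₂)) ^ 2 - a - x₁ - x₂) w h := by
  have e := Point.add_of_X_ne (h₁ := h₁) (h₂ := h₂) hx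
  have e2 : W.toAffine.addX x₁ x₂ (W.toAffine.slope x₁ x₂ y₁ y₂) =
      ((y₁ - y₂) / (x₁ - x₂)) ^ 2 - a - x₁ - x₂ := by
    rw [slope_of_X_ne hx]
    simp [Affine.addX, hW.a₁, hW.a₂]
  refine ⟨_, e2 ▸ nonsingular_add h₁ h₂ (fun hxy => hx hxy.1), ?_⟩
  rw [e]
  congr 1

/-- The symmetric identities for `X(P+Q)` and `X(P-Q)`. -/
lemma add_sub_of_X_ne {x₁ y₁ x₂ y₂ : K} (h₁ : W.toAffine.Nonsingular x₁ y₁)
    (h₂ : W.toAffine.Nonsingular x₂ y₂) (hx : x₁ ≠ x₂) :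
    ∃ z₁ w₁ h₁' z₂ w₂ h₂',
      Point.some x₁ y₁ h₁ + Point.some x₂ y₂ h₂ = Point.some z₁ w₁ h₁' ∧
      Point.some x₁ y₁ h₁ - Point.some x₂ y₂ h₂ = Point.some z₂ w₂ h₂' ∧
      z₁ + z₂ = 2 * ((x₁ + x₂) * (x₁ * x₂ + b) + 2 * a * x₁ * x₂) / (x₁ - x₂) ^ 2 ∧
      z₁ * z₂ = (x₁ * x₂ - b) ^ 2 / (x₁ - x₂) ^ 2 := by
  obtain ⟨w₁, h₁', e₁⟩ := hW.add_of_X_ne h₁ h₂ hx
  obtain ⟨hn, en⟩ := hW.neg_some h₂
  obtain ⟨w₂, h₂', e₂⟩ := hW.add_of_X_ne h₁ hn hx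
  refine ⟨_, w₁, h₁', _, w₂, h₂', e₁, by rw [sub_eq_add_neg, en, e₂], ?_, ?_⟩
  · have hd : x₁ - x₂ ≠ 0 := sub_ne_zero.mpr hx
    have q₁ := hW.eq_of_nonsingular h₁
    have q₂ := hW.eq_of_nonsingular h₂
    have : ((y₁ - y₂) / (x₁ - x₂)) ^ 2 - a - x₁ - x₂ + (((y₁ - -y₂) / (x₁ - x₂)) ^ 2 - a - x₁ - x₂) =
        (2 * y₁ ^ 2 + 2 * y₂ ^ 2) / (x₁ - x₂) ^ 2 - 2 * (a + x₁ + x₂) := by
      field_simp
      ring
    rw [this, q₁, q₂]
    field_simp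
    ring
  · have hd : x₁ - x₂ ≠ 0 := sub_ne_zero.mpr hx
    have q₁ := hW.eq_of_nonsingular h₁
    have q₂ := hW.eq_of_nonsingular h₂
    have : (((y₁ - y₂) / (x₁ - x₂)) ^ 2 - a - x₁ - x₂) * (((y₁ - -y₂) / (x₁ - x₂)) ^ 2 - a - x₁ - x₂) =
        ((y₁ ^ 2 - y₂ ^ 2) ^ 2 - (a + x₁ + x₂) * (x₁ - x₂) ^ 2 * (2 * y₁ ^ 2 + 2 * y₂ ^ 2) +
          (a + x₁ + x₂) ^ 2 * (x₁ - x₂) ^ 4) / (x₁ - x₂) ^ 4 := by
      field_simp
      ring
    rw [this, q₁, q₂]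
    field_simp
    ring

/-- A point with `y = 0` is `2`-torsion. -/
lemma add_self_of_Y_eq_zero {x : K} (h : W.toAffine.Nonsingular x 0) :
    Point.some x 0 h + Point.some x 0 h = 0 :=
  Point.add_self_of_Y_eq (by rw [hW.negY_eq, neg_zero])

/-- Duplication formula. -/
lemma add_self_of_Y_ne_zero (h2 : (2 : K) ≠ 0) {x y : K} (h : W.toAffine.Nonsingular x y)
    (hy : y ≠ 0) :
    ∃ w h', Point.some x y h + Point.some x y h =
      Point.some (((3 * x ^ 2 + 2 * a * x + b) / (2 * y)) ^ 2 - a - 2 * x) w h' := by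
  have hy' : y ≠ W.toAffine.negY x y := by
    rw [hW.negY_eq]
    intro h'
    apply hy
    have : 2 * y = 0 := by linear_combination h'
    exact (mul_eq_zero.mp this).resolve_left h2
  have e := Point.add_self_of_Y_ne (h₁ := h) hy'
  have e2 : W.toAffine.addX x x (W.toAffine.slope x x y y) =
      ((3 * x ^ 2 + 2 * a * x + b) / (2 * y)) ^ 2 - a - 2 * x := by
    rw [slope_of_Y_ne rfl hy', hW.negY_eq]
    simp only [Affine.addX, hW.a₁, hW.a₂, hW.a₄]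
    ring
  refine ⟨_, e2 ▸ nonsingular_add h h (fun hxy => hy' hxy.2), ?_⟩
  rw [e]
  congr 1

/-- The duplication formula in the form `X(2P) = (x² - b)² / (4 y²)`. -/
lemma dup_formula {x y : K} (h2 : (2 : K) ≠ 0) (h : W.toAffine.Nonsingular x y) (hy : y ≠ 0) :
    ((3 * x ^ 2 + 2 * a * x + b) / (2 * y)) ^ 2 - a - 2 * x = (x ^ 2 - b) ^ 2 / (4 * y ^ 2) := by
  have q := hW.eq_of_nonsingular h
  have h4 : (4 : K) ≠ 0 := by
    have : (4 : K) = 2 * 2 := by norm_num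
    rw [this]
    exact mul_ne_zero h2 h2
  have : ((3 * x ^ 2 + 2 * a * x + b) / (2 * y)) ^ 2 - a - 2 * x =
      ((3 * x ^ 2 + 2 * a * x + b) ^ 2 - (a + 2 * x) * (4 * y ^ 2)) / (4 * y ^ 2) := by
    field_simp
    ring
  rw [this, q]
  congr 1
  ring

end IsLeg

end Fermat.Agent.S05Lib
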