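import Fermat.Agent.Lib.S05.NodeRoots
import Fermat.Agent.Lib.S05.Legendre

/-!
# The pair law at a node, on points (S05, part C)

`W : y² = x³ + a x² + b x` with `ord a = 0`, `ord b = h > 0`, `ord 2 = 0`.  `fP P` is the clamped
order of `x(P)` (`0` at infinity).  We prove the pair law
`{fP (P+Q), fP (P-Q)} = {fP P ⊕ fP Q, |fP P - fP Q|}` and deduce `fP (m • P) ≡ ± m fP P mod 2h`.
-/

set_option autoImplicit false
set_option linter.unusedSectionVars false
set_option linter.unusedVariables false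

open WeierstrassCurve WeierstrassCurve.Affine

namespace Fermat.Agent.S05Lib

variable {K : Type*} [Field K] [DecidableEq K]

/-- clamped order of the `x`-coordinate of a point -/
noncomputable def fP (v : QVal K) (h : ℚ) {W : WeierstrassCurve K} : W.toAffine.Point → ℚ
  | .zero => 0
  | .some x _ _ => fx v h x

section

variable {v : QVal K} {h : ℚ} {W : WeierstrassCurve K} {a b : K}

@[simp] lemma fP_zero : fP v h (0 : W.toAffine.Point) = 0 := rfl

@[simp] lemma fP_some {x y : K} (hxy : W.toAffine.Nonsingular x y) :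
    fP v h (Point.some x y hxy) = fx v h x := rfl

lemma fP_neg (hW : IsLeg W a b) (P : W.toAffine.Point) : fP v h (-P) = fP v h P := by
  rcases P with _ | ⟨x, y, hxy⟩
  · rfl
  · obtain ⟨h', e⟩ := hW.neg_some hxy
    rw [e]
    rfl

lemma fP_nonneg (hh : 0 ≤ h) (P : W.toAffine.Point) : 0 ≤ fP v h P := by
  rcases P with _ | ⟨x, y, hxy⟩
  · exact le_rfl
  · exact fx_nonneg hh

lemma fP_le (hh : 0 ≤ h) (P : W.toAffine.Point) : fP v h P ≤ h := by
  rcases P with _ | ⟨x, y, hxy⟩
  · exact hh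
  · exact fx_le hh

lemma oplus_zero_left {t : ℚ} (ht : t ≤ h) : oplus h 0 t = t := by
  unfold oplus
  rw [zero_add, if_pos ht]

lemma oplus_zero_zero (hh : 0 ≤ h) : oplus h 0 0 = 0 := oplus_zero_left hh

lemma oplus_top_top (hh : 0 < h) : oplus h h h = 0 := by
  unfold oplus
  rw [if_neg (by linarith)]
  ring

variable (hW : IsLeg W a b) (ha : v.Is a 0) (hb : v.Is b h) (hh : 0 < h) (h2 : v.Is (2 : K) 0)
include hW ha hb hh h2

/-- duplication: `fP (2P) = fP P ⊕ fP P` -/
lemma fP_add_self {x y : K} (hxy : W.toAffine.Nonsingular x y) :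
    fP v h (Point.some x y hxy + Point.some x y hxy) = oplus h (fx v h x) (fx v h x) := by
  have hh' := hh.le
  have q := hW.eq_of_nonsingular hxy
  by_cases hy : y = 0
  · subst hy
    rw [hW.add_self_of_Y_eq_zero hxy, fP_zero]
    by_cases hx : x = 0
    · rw [fx_of_ge hh' (Or.inl hx), oplus_top_top hh]
    · have hq : x ^ 2 + a * x + b = 0 := by
        have : x * (x ^ 2 + a * x + b) = 0 := by linear_combination -q
        exact (mul_eq_zero.mp this).resolve_left hx
      rcases fx_cases v h x with c | ⟨t, ht0, hth, c⟩ | c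
      · rw [fx_of_le hh' c, oplus_zero_zero hh']
      · exfalso
        have h1 : v.Is (a * x) t := by simpa using ha.mul c
        have h2' : v.Gt (x ^ 2) t := c.sq.gt (by linarith)
        have h3 : v.Is (x ^ 2 + a * x + b) t := (h1.add_gt' h2').add_gt (hb.gt hth)
        exact h3.1 hq
      · rw [fx_of_ge hh' c, oplus_top_top hh]
  · obtain ⟨w, h', e⟩ := hW.add_self_of_Y_ne_zero h2.1 hxy hy
    rw [e, fP_some, hW.dup_formula h2.1 hxy hy]
    have hx : x ≠ 0 := by
      intro hx
      apply hy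
      rw [hx] at q
      have : y ^ 2 = 0 := by rw [q]; ring
      exact pow_eq_zero_iff (two_ne_zero) |>.mp this
    have h4 : v.Is (4 : K) 0 := by
      have := h2.mul h2
      norm_num at this
      exact this
    have hden0 : 4 * y ^ 2 ≠ 0 := mul_ne_zero h4.1 (pow_ne_zero 2 hy)
    have hden_eq : 4 * y ^ 2 = 4 * x * (x ^ 2 + a * x + b) := by rw [q]; ring
    have hq0 : x ^ 2 + a * x + b ≠ 0 := by
      intro h0
      apply hden0
      rw [hden_eq, h0, mul_zero]
    rcases fx_cases v h x with c | ⟨t, ht0, hth, c⟩ | c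
    · -- `ord x ≤ 0`
      rw [fx_of_le hh' c, oplus_zero_zero hh']
      apply fx_of_le hh'
      have i := QVal.is_ord (v := v) c.1
      set α := v.ord x with hα
      have hα0 : α ≤ 0 := c.2
      have hnum : v.Is ((x ^ 2 - b) ^ 2) (2 * (2 * α)) := (i.sq.sub_gt (hb.gt (by linarith))).sq
      have hqge : v.Ge (x ^ 2 + a * x + b) (2 * α) := by
        have t1 : v.Ge (a * x) (2 * α) := (ha.mul i).ge' (by linarith)
        exact (i.sq.ge.add t1).add (hb.ge' (by linarith))
      have hqo := QVal.is_ord (v := v) hq0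
      have hqo' : 2 * α ≤ v.ord (x ^ 2 + a * x + b) := hqge.resolve_left hq0
      have hden : v.Is (4 * y ^ 2) (0 + α + v.ord (x ^ 2 + a * x + b)) := by
        rw [hden_eq]
        exact (h4.mul i).mul hqo
      exact (hnum.div hden).le' (by linarith)
    · -- `0 < ord x = t < h`
      rw [fx_of_is c ht0.le hth.le]
      have h1 : v.Is (a * x) t := by simpa using ha.mul c
      have h2' : v.Gt (x ^ 2) t := c.sq.gt (by linarith)
      have hqi : v.Is (x ^ 2 + a * x + b) t := (h1.add_gt' h2').add_gt (hb.gt hth)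
      have hden : v.Is (4 * y ^ 2) (0 + t + t) := by
        rw [hden_eq]
        exact (h4.mul c).mul hqi
      rcases lt_trichotomy (t + t) h with hlt | heq | hgt
      · have ho : oplus h t t = t + t := by unfold oplus; rw [if_pos hlt.le]
        have hnum : v.Is ((x ^ 2 - b) ^ 2) (2 * (2 * t)) := (c.sq.sub_gt (hb.gt (by linarith))).sq
        rw [ho]
        exact fx_of_is ((hnum.div hden).congr (by ring)) (by linarith) (by linarith)
      · have ho : oplus h t t = h := by unfold oplus; rw [if_pos heq.le, heq]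
        have hnum : v.Ge ((x ^ 2 - b) ^ 2) (2 * h) := ((c.sq.ge' (by linarith)).sub hb.ge).sq
        rw [ho]
        exact fx_of_ge hh' ((hnum.div_is hden).mono (by linarith))
      · have ho : oplus h t t = 2 * h - (t + t) := by unfold oplus; rw [if_neg (not_le.mpr hgt)]
        have hnum : v.Is ((x ^ 2 - b) ^ 2) (2 * h) := (hb.sub_gt' (c.sq.gt (by linarith))).sq
        rw [ho]
        exact fx_of_is ((hnum.div hden).congr (by ring)) (by linarith) (by linarith)
    · -- `ord x ≥ h`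
      rw [fx_of_ge hh' c, oplus_top_top hh]
      apply fx_of_le hh'
      have i := QVal.is_ord (v := v) hx
      have hαh : h ≤ v.ord x := c.resolve_left hx
      have hnum : v.Is ((x ^ 2 - b) ^ 2) (2 * h) := (hb.sub_gt' (i.sq.gt (by linarith))).sq
      have hqge : v.Ge (x ^ 2 + a * x + b) h := by
        have t1 : v.Ge (a * x) h := (ha.mul i).ge' (by linarith)
        exact ((i.sq.ge' (by linarith)).add t1).add hb.ge
      have hqo := QVal.is_ord (v := v) hq0
      have hqo' : h ≤ v.ord (x ^ 2 + a * x + b) := hqge.resolve_left hq0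
      have hden : v.Is (4 * y ^ 2) (0 + v.ord x + v.ord (x ^ 2 + a * x + b)) := by
        rw [hden_eq]
        exact (h4.mul i).mul hqo
      exact (hnum.div hden).le' (by linarith)

/-- **The pair law on points.** -/
theorem pairLaw_points (P Q : W.toAffine.Point) :
    PairLaw h (fP v h (P + Q)) (fP v h (P - Q)) (fP v h P) (fP v h Q) := by
  have hh' := hh.le
  rcases P with _ | ⟨x₁, y₁, h₁⟩
  · have e0 : (Point.zero : W.toAffine.Point) = 0 := rfl
    rw [e0, zero_add, zero_sub, fP_neg hW, fP_zero]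
    left
    rw [oplus_zero_left (fP_le hh' Q), zero_sub, abs_neg, abs_of_nonneg (fP_nonneg hh' Q)]
    exact ⟨rfl, rfl⟩
  rcases Q with _ | ⟨x₂, y₂, h₂⟩
  · have e0 : (Point.zero : W.toAffine.Point) = 0 := rfl
    rw [e0, add_zero, sub_zero, fP_zero]
    left
    rw [oplus_comm, oplus_zero_left (fP_le hh' _), sub_zero, abs_of_nonneg (fP_nonneg hh' _)]
    exact ⟨rfl, rfl⟩
  by_cases hx : x₁ = x₂
  · subst hx
    rcases Y_eq_of_X_eq h₁.1 h₂.1 rfl with hy | hy
    · subst hy
      rw [sub_self, fP_zero, fP_some, fP_add_self hW ha hb hh h2 h₁]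
      left
      rw [sub_self, abs_zero]
      exact ⟨rfl, rfl⟩
    · rw [hW.negY_eq] at hy
      subst hy
      obtain ⟨hn, en⟩ := hW.neg_some h₂
      have e1 : Point.some x₁ (-y₂) h₁ = -Point.some x₁ y₂ h₂ := by rw [en]
      have e2 : -Point.some x₁ y₂ h₂ - Point.some x₁ y₂ h₂ =
          -(Point.some x₁ y₂ h₂ + Point.some x₁ y₂ h₂) := by abel
      rw [e1, neg_add_cancel, e2, fP_neg hW, fP_neg hW, fP_zero, fP_some,
        fP_add_self hW ha hb hh h2 h₂]
      right
      rw [sub_self, abs_zero]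
      exact ⟨rfl, rfl⟩
  · obtain ⟨z₁, w₁, h₁', z₂, w₂, h₂', e₁, e₂, hS, hPi⟩ := hW.add_sub_of_X_ne h₁ h₂ hx
    rw [e₁, e₂, fP_some, fP_some, fP_some, fP_some]
    exact RootData.pairLaw ⟨hx, hS, hPi⟩ ha hb hh h2

end

/-! ### The induction -/

/-- `s ≡ ± t` modulo `2h` -/
def Sim (h s t : ℚ) : Prop := ∃ k : ℤ, s = t + 2 * h * k ∨ s = -t + 2 * h * k

lemma Sim.refl (h s : ℚ) : Sim h s s := ⟨0, Or.inl (by simp)⟩

lemma Sim.symm {h s t : ℚ} (H : Sim h s t) : Sim h t s := by
  obtain ⟨k, hk | hk⟩ := H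
  · exact ⟨-k, Or.inl (by rw [hk]; push_cast; ring)⟩
  · exact ⟨k, Or.inr (by rw [hk]; ring)⟩

lemma Sim.trans {h s t u : ℚ} (H₁ : Sim h s t) (H₂ : Sim h t u) : Sim h s u := by
  obtain ⟨k, hk | hk⟩ := H₁ <;> obtain ⟨l, hl | hl⟩ := H₂
  · exact ⟨k + l, Or.inl (by rw [hk, hl]; push_cast; ring)⟩
  · exact ⟨k + l, Or.inr (by rw [hk, hl]; push_cast; ring)⟩
  · exact ⟨k - l, Or.inr (by rw [hk, hl]; push_cast; ring)⟩
  · exact ⟨k - l, Or.inl (by rw [hk, hl]; push_cast; ring)⟩

lemma Sim.neg_right {h s t : ℚ} (H : Sim h s t) : Sim h s (-t) := by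
  obtain ⟨k, hk | hk⟩ := H
  · exact ⟨k, Or.inr (by rw [hk]; ring)⟩
  · exact ⟨k, Or.inl (by rw [hk])⟩

lemma sim_oplus (h s t : ℚ) : Sim h (oplus h s t) (s + t) := by
  unfold oplus
  split_ifs
  · exact Sim.refl _ _
  · exact ⟨1, Or.inr (by push_cast; ring)⟩

lemma sim_abs (h s t : ℚ) : Sim h |s - t| (s - t) := by
  rcases abs_choice (s - t) with e | e
  · rw [e]; exact Sim.refl _ _
  · rw [e]; exact (Sim.refl _ _).neg_right.symm

/-- if `s ≡ ± c` then `{s + j, s - j} ≡ {± (c + j), ± (c - j)}` -/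
lemma sim_add_sub {h s c j : ℚ} (H : Sim h s c) :
    (Sim h (s + j) (c + j) ∧ Sim h (s - j) (c - j)) ∨
      (Sim h (s + j) (c - j) ∧ Sim h (s - j) (c + j)) := by
  obtain ⟨k, hk | hk⟩ := H
  · left
    exact ⟨⟨k, Or.inl (by rw [hk]; ring)⟩, ⟨k, Or.inl (by rw [hk]; ring)⟩⟩
  · right
    exact ⟨⟨k, Or.inr (by rw [hk]; ring)⟩, ⟨k, Or.inr (by rw [hk]; ring)⟩⟩

section

variable {v : QVal K} {h : ℚ} {W : WeierstrassCurve K} {a b : K}
  (hW : IsLeg W a b) (ha : v.Is a 0) (hb : v.Is b h) (hh : 0 < h) (h2 : v.Is (2 : K) 0)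
include hW ha hb hh h2

/-- `fP (m • P) ≡ ± m · fP P` modulo `2h`. -/
theorem fP_nsmul_sim (P : W.toAffine.Point) (m : ℕ) :
    Sim h (fP v h (m • P)) (m * fP v h P) := by
  set j := fP v h P with hj
  have main : ∀ m : ℕ, Sim h (fP v h (m • P)) (m * j) ∧ Sim h (fP v h ((m + 1) • P)) ((m + 1 : ℕ) * j) := by
    intro m
    induction m with
    | zero =>
      refine ⟨?_, ?_⟩
      · rw [zero_smul, fP_zero]
        simp only [Nat.cast_zero, zero_mul]
        exact Sim.refl _ _
      · rw [zero_add, one_smul]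
        simp only [Nat.cast_one, one_mul]
        exact Sim.refl _ _
    | succ m ih =>
      obtain ⟨i0, i1⟩ := ih
      refine ⟨i1, ?_⟩
      have e1 : (m + 1) • P + P = (m + 1 + 1) • P := by rw [add_smul (m + 1) 1 P, one_smul]
      have e2 : (m + 1) • P - P = m • P := by rw [add_smul, one_smul, add_sub_cancel_right]
      have pl := pairLaw_points hW ha hb hh h2 ((m + 1) • P) P
      rw [e1, e2] at pl
      set s := fP v h ((m + 1) • P) with hs
      have hU : Sim h (oplus h s j) (s + j) := sim_oplus h s j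
      have hV : Sim h |s - j| (s - j) := sim_abs h s j
      have c1 : ((m + 1 : ℕ) : ℚ) * j + j = ((m + 1 + 1 : ℕ) : ℚ) * j := by push_cast; ring
      have c2 : ((m + 1 : ℕ) : ℚ) * j - j = (m : ℚ) * j := by push_cast; ring
      have key := sim_add_sub (j := j) i1
      rw [c1, c2] at key
      rcases key with ⟨k1, k2⟩ | ⟨k1, k2⟩
      · -- U ~ (m+2) j, V ~ m j
        rcases pl with ⟨pa, pb⟩ | ⟨pa, pb⟩
        · rw [pa]; exact hU.trans k1
        · -- A = V ~ m j, B = U ~ (m+2) j
          have hB : Sim h (fP v h (m • P)) (((m + 1 + 1 : ℕ) : ℚ) * j) := by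
            rw [pb]; exact hU.trans k1
          have hmm : Sim h ((m : ℚ) * j) (((m + 1 + 1 : ℕ) : ℚ) * j) := i0.symm.trans hB
          rw [pa]
          exact (hV.trans k2).trans hmm
      · -- U ~ m j, V ~ (m+2) j
        rcases pl with ⟨pa, pb⟩ | ⟨pa, pb⟩
        · have hB : Sim h (fP v h (m • P)) (((m + 1 + 1 : ℕ) : ℚ) * j) := by
            rw [pb]; exact hV.trans k2
          have hmm : Sim h ((m : ℚ) * j) (((m + 1 + 1 : ℕ) : ℚ) * j) := i0.symm.trans hB
          rw [pa]
          exact (hU.trans k1).trans hmm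
        · rw [pa]; exact hV.trans k2
  exact (main m).1

/-- If `n • P = 0` then `n · fP P ∈ 2h ℤ`. -/
theorem nsmul_fP_mem (P : W.toAffine.Point) {n : ℕ} (hn : n • P = 0) :
    ∃ k : ℤ, (n : ℚ) * fP v h P = 2 * h * k := by
  have := fP_nsmul_sim hW ha hb hh h2 P n
  rw [hn, fP_zero] at this
  obtain ⟨k, hk | hk⟩ := this
  · exact ⟨-k, by push_cast; linarith⟩
  · exact ⟨k, by linarith⟩

end

end Fermat.Agent.S05Lib
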