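import Fermat.Agent.Lib.S05.Roots
import Fermat.Agent.Lib.X015.VariableChangePoint
import Fermat.Prelude.Def_FLTPrelim_Ramification

/-!
# Inertia acts trivially on the `p`-torsion of Legendre curves with integral roots (S05)
-/

set_option autoImplicit false
set_option linter.unusedSectionVars false
set_option linter.unusedVariables false

open WeierstrassCurve WeierstrassCurve.Affine WeierstrassCurve.Affine.Point

namespace Fermat.Agent.S05Lib

local notation "Qb" => AlgebraicClosure ℚ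

/-- The properties of a `ℚ`-valued valuation on `Qb` attached to a valuation subring over `q`. -/
structure QValFor (A : ValuationSubring Qb) (q : ℕ) (v : QVal Qb) : Prop where
  mem_iff : ∀ x, x ∈ A ↔ x = 0 ∨ 0 ≤ v.ord x
  ord_int : ∀ n : ℤ, ¬ (q : ℤ) ∣ n → v.ord (n : Qb) = 0
  ord_q : 0 < v.ord (q : Qb)
  ord_inertia : ∀ σ ∈ A.inertiaSubgroupIn ℚ, ∀ x, v.ord (σ x) = v.ord x
  inert : ∀ σ ∈ A.inertiaSubgroupIn ℚ, ∀ x, x ∈ A → σ x = x ∨ 0 < v.ord (σ x - x)

section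

variable {A : ValuationSubring Qb} {q : ℕ} {v : QVal Qb} (hv : QValFor A q v)
include hv

lemma QValFor.ge_int (n : ℤ) : v.Ge (n : Qb) 0 :=
  (hv.mem_iff _).mp (intCast_mem A n)

lemma QValFor.is_int {n : ℤ} (h : ¬ (q : ℤ) ∣ n) : v.Is (n : Qb) 0 := by
  refine ⟨?_, hv.ord_int n h⟩
  intro h0
  apply h
  have : n = 0 := by exact_mod_cast h0
  rw [this]
  exact dvd_zero _

lemma QValFor.gt_q (hq : q.Prime) : v.Gt (q : Qb) 0 := Or.inr hv.ord_q

lemma QValFor.gt_int (hq : q.Prime) {n : ℤ} (h : (q : ℤ) ∣ n) : v.Gt (n : Qb) 0 := by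
  obtain ⟨m, rfl⟩ := h
  push_cast
  exact (hv.gt_q hq).mul_ge0 (hv.ge_int m)

lemma QValFor.is_two (hq : q.Prime) (hq2 : q ≠ 2) : v.Is (2 : Qb) 0 := by
  have : ¬ (q : ℤ) ∣ (2 : ℤ) := by
    intro h
    have h' : q ∣ 2 := by exact_mod_cast h
    exact hq2 ((Nat.prime_dvd_prime_iff_eq hq Nat.prime_two).mp h')
  have := hv.is_int this
  exact_mod_cast this

lemma QValFor.is_prime (hq : q.Prime) {p : ℕ} (hp : p.Prime) (hqp : q ≠ p) :
    v.Is ((p : ℕ) : Qb) 0 := by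
  have : ¬ (q : ℤ) ∣ (p : ℤ) := by
    intro h
    have h' : q ∣ p := by exact_mod_cast h
    exact hqp ((Nat.prime_dvd_prime_iff_eq hq hp).mp h')
  have := hv.is_int this
  exact_mod_cast this

/-- An element of the inertia group is inertia-like for the valuation. -/
lemma QValFor.inertiaLike (L : WeierstrassCurve ℚ) {σ : Qb ≃ₐ[ℚ] Qb}
    (hσ : σ ∈ A.inertiaSubgroupIn ℚ) :
    InertiaLike v (L.toAffine⁄Qb) (σ : Qb →+* Qb) (Point.map (W' := L.toAffine) σ.toAlgHom) where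
  map_some x y h := ⟨(L.toAffine.baseChange_nonsingular σ.toAlgHom.injective ..).mpr h, rfl⟩
  ord_map x := hv.ord_inertia σ hσ x
  inert x hx := by
    have hxA : x ∈ A := (hv.mem_iff x).mpr hx
    rcases hv.inert σ hσ x hxA with h | h
    · exact Or.inl (sub_eq_zero.mpr h)
    · exact Or.inr h

end

/-- The Legendre curve `y² = x (x - e) (x - r)` with integer roots, over `ℚ`. -/
def legQ (e r : ℤ) : WeierstrassCurve ℚ := ⟨0, -((e : ℚ) + r), 0, (e : ℚ) * r, 0⟩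

lemma isLeg_legQ (e r : ℤ) :
    IsLeg ((legQ e r).toAffine⁄Qb) (-((e : Qb) + r)) ((e : Qb) * r) where
  a₁ := by simp [legQ]
  a₂ := by simp [legQ]
  a₃ := by simp [legQ]
  a₄ := by simp [legQ]
  a₆ := by simp [legQ]

section main

variable {A : ValuationSubring Qb} {q : ℕ} {v : QVal Qb} (hv : QValFor A q v)
  (hq : q.Prime) (hq2 : q ≠ 2) {p : ℕ} (hp : p.Prime) (hqp : q ≠ p)
  {σ : Qb ≃ₐ[ℚ] Qb} (hσ : σ ∈ A.inertiaSubgroupIn ℚ)
include hv hq hq2 hp hqp hσ

/-- Good reduction: inertia fixes the `p`-torsion. -/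
theorem smul_eq_of_good {e r : ℤ} (he : ¬ (q : ℤ) ∣ e) (hr : ¬ (q : ℤ) ∣ r)
    (her : ¬ (q : ℤ) ∣ e - r) (P : ((legQ e r).toAffine⁄Qb).Point) (hP : p • P = 0) :
    σ • P = P := by
  have hW := isLeg_legQ e r
  have hei := hv.is_int he
  have hri := hv.is_int hr
  have heri : v.Is ((e : Qb) - r) 0 := by
    have := hv.is_int her
    exact_mod_cast this
  have ha : v.Ge (-((e : Qb) + r)) 0 := (hei.ge.add hri.ge).neg
  have hb : v.Ge ((e : Qb) * r) 0 := (hei.mul0 hri).ge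
  exact map_eq_of_good hW ha hb (hv.is_two hq hq2) (hv.inertiaLike (legQ e r) hσ)
    (hv.is_prime hq hp hqp) (good_of_roots hW hei hri heri) hP

/-- Multiplicative reduction with `e = ε ^ p`: inertia fixes the `p`-torsion. -/
theorem smul_eq_of_node {ε r : ℤ} (hε : (q : ℤ) ∣ ε) (hε0 : ε ≠ 0) (hr : ¬ (q : ℤ) ∣ r)
    (P : ((legQ (ε ^ p) r).toAffine⁄Qb).Point) (hP : p • P = 0) :
    σ • P = P := by
  have hW := isLeg_legQ (ε ^ p) r
  have hri := hv.is_int hr
  have hε0' : (ε : Qb) ≠ 0 := by exact_mod_cast hε0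
  have hεi : v.Is (ε : Qb) (v.ord (ε : Qb)) := QVal.is_ord hε0'
  have hη : 0 < v.ord (ε : Qb) := (hv.gt_int hq hε).resolve_left hε0'
  have hei : v.Is ((ε ^ p : ℤ) : Qb) (p * v.ord (ε : Qb)) := by
    have := hεi.pow p
    exact_mod_cast this
  have hh : 0 < (p : ℚ) * v.ord (ε : Qb) := by
    have : 0 < (p : ℚ) := by exact_mod_cast hp.pos
    positivity
  have ha : v.Is (-(((ε ^ p : ℤ) : Qb) + r)) 0 := (hri.add_gt' (hei.gt hh)).neg
  have hb : v.Is (((ε ^ p : ℤ) : Qb) * r) (p * v.ord (ε : Qb)) :=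
    (hei.mul hri).congr (add_zero _)
  have hsq : ∀ z : Qb, ∃ y, y ^ 2 = z := fun z => IsAlgClosed.exists_pow_nat_eq z two_pos
  refine map_eq_of_node hW ha hb hh (hv.is_two hq hq2) (hv.inertiaLike (legQ (ε ^ p) r) hσ)
    (hv.is_prime hq hp hqp) hsq hεi hη rfl ?_ ?_ ?_ (node_of_roots hW (hei.gt hh) hri) hP
  · simp
  · simp
  · simp

end main

end Fermat.Agent.S05Lib
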