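import Fermat.Agent.Lib.S05.LocalMain

/-!
# Reduction type of `y² = x (x - e) (x - r)` from the orders of the roots (S05)
-/

set_option autoImplicit false
set_option linter.unusedSectionVars false
set_option linter.unusedVariables false

open WeierstrassCurve WeierstrassCurve.Affine

namespace Fermat.Agent.S05Lib

variable {K : Type*} [Field K] [DecidableEq K] {v : QVal K} {W : WeierstrassCurve K} {e r : K}

lemma QVal.Is.mul0 {x y : K} (hx : v.Is x 0) (hy : v.Is y 0) : v.Is (x * y) 0 :=
  (hx.mul hy).congr (add_zero 0)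

lemma QVal.Gt.mul_ge0 {x y : K} (hx : v.Gt x 0) (hy : v.Ge y 0) : v.Gt (x * y) 0 :=
  (hx.mul_ge hy).mono (by norm_num)

lemma QVal.is_zero_of_le_of_ge {x : K} (h1 : v.Le x 0) (h2 : v.Ge x 0) : v.Is x 0 :=
  ⟨h1.1, le_antisymm h1.2 (h2.resolve_left h1.1)⟩

lemma QVal.is_zero_of_sq {y z : K} (h : y ^ 2 = z) (hz : v.Is z 0) : v.Is y 0 := by
  have hy0 : y ≠ 0 := by
    intro h0
    apply hz.1
    rw [← h, h0]
    ring
  refine ⟨hy0, ?_⟩
  have h1 := (QVal.is_ord (v := v) hy0).sq
  rw [h] at h1
  have := h1.unique hz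
  linarith

/-- If the three roots `0, e, r` are pairwise distinct modulo the maximal ideal then every
integral point has nonsingular reduction. -/
lemma good_of_roots (hW : IsLeg W (-(e + r)) (e * r)) (he : v.Is e 0) (hr : v.Is r 0)
    (her : v.Is (e - r) 0) (x y : K) (hxy : W.toAffine.Nonsingular x y) (hx : v.Ge x 0) :
    v.Is y 0 ∨ v.Is (3 * x ^ 2 + 2 * (-(e + r)) * x + e * r) 0 := by
  have heq : y ^ 2 = x * (x - e) * (x - r) := by
    have := (hW.equation_iff x y).mp hxy.1
    rw [this]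
    ring
  rcases QVal.le_or_gt (v := v) x 0 with hx0 | hx0
  · have hxi : v.Is x 0 := QVal.is_zero_of_le_of_ge hx0 hx
    rcases QVal.le_or_gt (v := v) (x - e) 0 with h1 | h1
    · have h1i : v.Is (x - e) 0 := QVal.is_zero_of_le_of_ge h1 (hx.sub he.ge)
      rcases QVal.le_or_gt (v := v) (x - r) 0 with h2 | h2
      · have h2i : v.Is (x - r) 0 := QVal.is_zero_of_le_of_ge h2 (hx.sub hr.ge)
        left
        exact QVal.is_zero_of_sq heq ((hxi.mul0 h1i).mul0 h2i)
      · right
        have e1 : 3 * x ^ 2 + 2 * (-(e + r)) * x + e * r =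
            x * (x - e) + (x - r) * ((x - e) + x) := by ring
        rw [e1]
        exact (hxi.mul0 h1i).add_gt (h2.mul_ge0 (h1i.ge.add hx))
    · right
      have h2i : v.Is (x - r) 0 := by
        have := her.add_gt' h1
        convert this using 1
        ring
      have e1 : 3 * x ^ 2 + 2 * (-(e + r)) * x + e * r =
          x * (x - r) + (x - e) * ((x - r) + x) := by ring
      rw [e1]
      exact (hxi.mul0 h2i).add_gt (h1.mul_ge0 (h2i.ge.add hx))
  · right
    have h1i : v.Is (x - e) 0 := by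
      have := he.neg.add_gt' hx0
      rwa [← sub_eq_add_neg] at this
    have h2i : v.Is (x - r) 0 := by
      have := hr.neg.add_gt' hx0
      rwa [← sub_eq_add_neg] at this
    have e1 : 3 * x ^ 2 + 2 * (-(e + r)) * x + e * r =
        (x - e) * (x - r) + x * ((x - r) + (x - e)) := by ring
    rw [e1]
    exact (h1i.mul0 h2i).add_gt (hx0.mul_ge0 (h2i.ge.add h1i.ge))

/-- If `e` has positive order and `r` is a unit, every point with unit `x`-coordinate has
nonsingular reduction. -/
lemma node_of_roots (hW : IsLeg W (-(e + r)) (e * r)) (he : v.Gt e 0) (hr : v.Is r 0)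
    (x y : K) (hxy : W.toAffine.Nonsingular x y) (hxi : v.Is x 0) :
    v.Is y 0 ∨ v.Is (3 * x ^ 2 + 2 * (-(e + r)) * x + e * r) 0 := by
  have heq : y ^ 2 = x * (x - e) * (x - r) := by
    have := (hW.equation_iff x y).mp hxy.1
    rw [this]
    ring
  have h1i : v.Is (x - e) 0 := hxi.sub_gt he
  rcases QVal.le_or_gt (v := v) (x - r) 0 with h2 | h2
  · have h2i : v.Is (x - r) 0 := QVal.is_zero_of_le_of_ge h2 (hxi.ge.sub hr.ge)
    left
    exact QVal.is_zero_of_sq heq ((hxi.mul0 h1i).mul0 h2i)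
  · right
    have e1 : 3 * x ^ 2 + 2 * (-(e + r)) * x + e * r =
        x * (x - e) + (x - r) * ((x - e) + x) := by ring
    rw [e1]
    exact (hxi.mul0 h1i).add_gt (h2.mul_ge0 (h1i.ge.add hxi.ge))

end Fermat.Agent.S05Lib
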