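import Fermat.Agent.Lib.S05.Global

/-!
# The Frey curve: inertia at odd `q ≠ p` acts trivially on the `p`-torsion (S05)
-/

set_option autoImplicit false
set_option linter.unusedSectionVars false
set_option linter.unusedVariables false

open WeierstrassCurve WeierstrassCurve.Affine WeierstrassCurve.Affine.Point

namespace Fermat.Agent.S05Lib

local notation "Qb" => AlgebraicClosure ℚ

/-- Transport of "`σ` fixes the `n`-torsion" along a rational change of variables. -/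
theorem torsion_fixed_of_variableChange (L E : WeierstrassCurve ℚ) (C : VariableChange ℚ)
    (hE : E = C • L) (σ : Qb ≃ₐ[ℚ] Qb) (n : ℕ)
    (h : ∀ P : (L.toAffine⁄Qb).Point, n • P = 0 → σ • P = P)
    (x : Submodule.torsionBy ℤ (E.toAffine⁄Qb).Point n) : σ • x = x := by
  subst hE
  obtain ⟨φ, hφ⟩ := Fermat.Agent.X015.exists_galois_equivariant_equiv (K := Qb) L C
  apply Subtype.ext
  show σ • (x : ((C • L).toAffine⁄Qb).Point) = x
  have hx := x.2
  rw [Submodule.mem_torsionBy_iff] at hx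
  have h1 : n • φ.symm (x : ((C • L).toAffine⁄Qb).Point) = 0 := by
    rw [← map_nsmul, ← natCast_zsmul, hx, _root_.map_zero]
  have h2 := h _ h1
  have h3 := hφ σ (φ.symm x)
  rw [h2, φ.apply_symm_apply] at h3
  exact h3.symm

/-- The change of variables `(x, y) ↦ (4 x + ρ, 8 y + 4 x)`. -/
def freyVC (ρ : ℚ) : VariableChange ℚ := ⟨Units.mk0 2 two_ne_zero, ρ, 1, 0⟩

lemma freyCurve_eq_ab (P : FreyPackage) :
    P.freyCurve = freyVC 0 • legQ (P.a ^ P.p) (-(P.b ^ P.p)) := by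
  ext
  · simp [FreyPackage.freyCurve, freyVC, legQ, variableChange_a₁]
  · simp [FreyPackage.freyCurve, freyVC, legQ, variableChange_a₂]
    ring
  · simp [FreyPackage.freyCurve, freyVC, legQ, variableChange_a₃]
  · simp [FreyPackage.freyCurve, freyVC, legQ, variableChange_a₄]
    ring
  · simp [FreyPackage.freyCurve, freyVC, legQ, variableChange_a₆]

lemma freyCurve_eq_ba (P : FreyPackage) :
    P.freyCurve = freyVC 0 • legQ ((-P.b) ^ P.p) (P.a ^ P.p) := by
  have hodd : (-(P.b : ℚ)) ^ P.p = -(P.b : ℚ) ^ P.p := P.hp_odd.neg_pow _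
  ext
  · simp [FreyPackage.freyCurve, freyVC, legQ, variableChange_a₁]
  · simp [FreyPackage.freyCurve, freyVC, legQ, variableChange_a₂, hodd]
    ring
  · simp [FreyPackage.freyCurve, freyVC, legQ, variableChange_a₃]
  · simp [FreyPackage.freyCurve, freyVC, legQ, variableChange_a₄, hodd]
    ring
  · simp [FreyPackage.freyCurve, freyVC, legQ, variableChange_a₆]

lemma freyCurve_eq_c (P : FreyPackage) :
    P.freyCurve = freyVC (-((P.a : ℚ) ^ P.p)) • legQ ((-P.c) ^ P.p) (-(P.a ^ P.p)) := by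
  have hodd : (-(P.c : ℚ)) ^ P.p = -(P.c : ℚ) ^ P.p := P.hp_odd.neg_pow _
  have hc : (P.c : ℚ) ^ P.p = (P.a : ℚ) ^ P.p + (P.b : ℚ) ^ P.p := by
    exact_mod_cast P.hFLT.symm
  ext
  · simp [FreyPackage.freyCurve, freyVC, legQ, variableChange_a₁]
  · simp [FreyPackage.freyCurve, freyVC, legQ, variableChange_a₂, hodd, hc]
    ring
  · simp [FreyPackage.freyCurve, freyVC, legQ, variableChange_a₃]
  · simp [FreyPackage.freyCurve, freyVC, legQ, variableChange_a₄, hodd, hc]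
    ring
  · simp [FreyPackage.freyCurve, freyVC, legQ, variableChange_a₆, hodd, hc]
    ring

/-- **S05, given a valuation.** -/
theorem frey_unramified (P : FreyPackage) {q : ℕ} (hq : q.Prime) (hq2 : q ≠ 2) (hqp : q ≠ P.p)
    {A : ValuationSubring Qb} {v : QVal Qb} (hv : QValFor A q v) {σ : Qb ≃ₐ[ℚ] Qb}
    (hσ : σ ∈ A.inertiaSubgroupIn ℚ)
    (x : Submodule.torsionBy ℤ (P.freyCurve.toAffine⁄Qb).Point P.p) : σ • x = x := by
  have hqZ : Prime (q : ℤ) := Nat.prime_iff_prime_int.mp hq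
  have hcop : ∀ {m n : ℤ}, gcd m n = 1 → (q : ℤ) ∣ m → ¬ (q : ℤ) ∣ n := by
    intro m n hmn hm hn
    have := dvd_gcd hm hn
    rw [hmn] at this
    exact hqZ.not_isUnit (isUnit_of_dvd_one this)
  have hpow : ∀ {m : ℤ}, ¬ (q : ℤ) ∣ m → ¬ (q : ℤ) ∣ m ^ P.p := fun h h' =>
    h (hqZ.dvd_of_dvd_pow h')
  by_cases ha : (q : ℤ) ∣ P.a
  · -- `q ∣ a`
    have hb : ¬ (q : ℤ) ∣ P.b := hcop P.hgcdab ha
    refine torsion_fixed_of_variableChange _ _ _ (freyCurve_eq_ab P) σ P.p ?_ x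
    intro Q hQ
    exact smul_eq_of_node hv hq hq2 P.pp hqp hσ ha P.ha0 (by rw [dvd_neg]; exact hpow hb) Q hQ
  by_cases hb : (q : ℤ) ∣ P.b
  · -- `q ∣ b`
    refine torsion_fixed_of_variableChange _ _ _ (freyCurve_eq_ba P) σ P.p ?_ x
    intro Q hQ
    exact smul_eq_of_node hv hq hq2 P.pp hqp hσ (by rw [dvd_neg]; exact hb)
      (neg_ne_zero.mpr P.hb0) (hpow ha) Q hQ
  by_cases hc : (q : ℤ) ∣ P.c
  · -- `q ∣ c`
    refine torsion_fixed_of_variableChange _ _ _ (freyCurve_eq_c P) σ P.p ?_ x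
    intro Q hQ
    exact smul_eq_of_node hv hq hq2 P.pp hqp hσ (by rw [dvd_neg]; exact hc)
      (neg_ne_zero.mpr P.hc0) (by rw [dvd_neg]; exact hpow ha) Q hQ
  · -- good reduction
    refine torsion_fixed_of_variableChange _ _ _ (freyCurve_eq_ab P) σ P.p ?_ x
    intro Q hQ
    refine smul_eq_of_good hv hq hq2 P.pp hqp hσ (hpow ha) (by rw [dvd_neg]; exact hpow hb) ?_ Q hQ
    rw [sub_neg_eq_add, P.hFLT]
    exact hpow hc

end Fermat.Agent.S05Lib
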