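import Fermat.Agent.Lib.S05.QVal
import Fermat.Agent.Lib.S05.Legendre

/-!
# The kernel of reduction `E₁` on `y² = x³ + a x² + b x` (S05, part A)

For an integral model (`ord a, ord b ≥ 0`, `ord 2 = 0`), `E_τ = {O} ∪ {ord x ≤ -τ}` (`τ > 0`) is
closed under `±`, `ξ = 1/x` satisfies `ξ(P+Q) + ξ(P-Q) ≡ 2ξ(P) + 2ξ(Q)` modulo order `2τ`, hence
`ξ(kP) ≡ k² ξ(P)` and `E₁` has no `n`-torsion for `n` a unit.
-/

set_option autoImplicit false
set_option linter.unusedSectionVars false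

open WeierstrassCurve WeierstrassCurve.Affine

namespace Fermat.Agent.S05Lib

variable {K : Type*} [Field K] [DecidableEq K]

/-- inverse of the `x`-coordinate (`0` at infinity) -/
def xi {W : WeierstrassCurve K} : W.toAffine.Point → K
  | .zero => 0
  | .some x _ _ => x⁻¹

/-- `P` is `O` or `ord x(P) ≤ -τ` -/
def InE (v : QVal K) {W : WeierstrassCurve K} (τ : ℚ) : W.toAffine.Point → Prop
  | .zero => True
  | .some x _ _ => v.Le x (-τ)

section

variable {v : QVal K} {W : WeierstrassCurve K} {a b : K}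

@[simp] lemma xi_zero : xi (0 : W.toAffine.Point) = 0 := rfl

@[simp] lemma xi_some {x y : K} (h : W.toAffine.Nonsingular x y) : xi (Point.some x y h) = x⁻¹ := rfl

@[simp] lemma inE_zero {τ : ℚ} : InE v τ (0 : W.toAffine.Point) := trivial

@[simp] lemma inE_some {τ : ℚ} {x y : K} (h : W.toAffine.Nonsingular x y) :
    InE v τ (Point.some x y h) ↔ v.Le x (-τ) := Iff.rfl

lemma InE.mono {τ τ' : ℚ} {P : W.toAffine.Point} (h : InE v τ P) (hτ : τ' ≤ τ) : InE v τ' P := by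
  rcases P with _ | ⟨x, y, hxy⟩
  · trivial
  · exact QVal.Le.mono (show v.Le x (-τ) from h) (by linarith)

lemma InE.xi_ge {τ : ℚ} {P : W.toAffine.Point} (h : InE v τ P) : v.Ge (xi P) τ := by
  rcases P with _ | ⟨x, y, hxy⟩
  · exact QVal.ge_zero'
  · have h' : v.Le x (-τ) := h
    have := (QVal.is_ord (v := v) h'.1).inv
    exact this.ge' (by linarith [h'.2])

lemma xi_neg (hW : IsLeg W a b) (P : W.toAffine.Point) : xi (-P) = xi P := by
  rcases P with _ | ⟨x, y, hxy⟩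
  · rfl
  · obtain ⟨h', e⟩ := hW.neg_some hxy
    rw [e]
    rfl

lemma InE.neg (hW : IsLeg W a b) {τ : ℚ} {P : W.toAffine.Point} (h : InE v τ P) :
    InE v τ (-P) := by
  rcases P with _ | ⟨x, y, hxy⟩
  · exact h
  · obtain ⟨h', e⟩ := hW.neg_some hxy
    rw [e]
    exact h

/-- In `E_τ` (`τ > 0`) the `y`-coordinate does not vanish. -/
lemma y_ne_zero_of_inE (hW : IsLeg W a b) (ha : v.Ge a 0) (hb : v.Ge b 0) {τ : ℚ} (hτ : 0 < τ)
    {x y : K} (hxy : W.toAffine.Nonsingular x y) (h : v.Le x (-τ)) : y ≠ 0 := by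
  intro hy
  have q := hW.eq_of_nonsingular hxy
  rw [hy] at q
  have hx := QVal.is_ord (v := v) h.1
  have h1 : v.Is (x ^ 3) (3 * v.ord x) := by simpa using hx.pow 3
  have h2 : v.Gt (a * x ^ 2) (3 * v.ord x) := by
    have := ha.mul (hx.pow 2).ge
    exact this.gt (by push_cast; linarith [h.2])
  have h3 : v.Gt (b * x) (3 * v.ord x) := by
    have := hb.mul hx.ge
    exact this.gt (by linarith [h.2])
  have h4 := (h1.add_gt h2).add_gt h3
  apply h4.1
  rw [← q]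
  ring

/-- the key estimate for doubling -/
lemma inE_two_smul_aux (hW : IsLeg W a b) (ha : v.Ge a 0) (hb : v.Ge b 0) (h2 : v.Is (2 : K) 0)
    {τ : ℚ} (hτ : 0 < τ) {x y : K} (hxy : W.toAffine.Nonsingular x y) (h : v.Le x (-τ)) :
    InE v τ (Point.some x y hxy + Point.some x y hxy) ∧
      v.Ge (xi (Point.some x y hxy + Point.some x y hxy) - 4 * x⁻¹) (2 * τ) := by
  have hy := y_ne_zero_of_inE hW ha hb hτ hxy h
  obtain ⟨w, h', e⟩ := hW.add_self_of_Y_ne_zero h2.1 hxy hy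
  rw [e, inE_some, xi_some, hW.dup_formula h2.1 hxy hy]
  have q := hW.eq_of_nonsingular hxy
  have hx0 := h.1
  set u := x⁻¹ with hu
  have hxu : x = u⁻¹ := by rw [hu, inv_inv]
  have hu0 : u ≠ 0 := inv_ne_zero hx0
  have hux : v.Is u (-v.ord x) := (QVal.is_ord (v := v) hx0).inv
  set t := -v.ord x with ht
  have htτ : τ ≤ t := by rw [ht]; linarith [h.2]
  have h4 : v.Is (4 : K) 0 := by
    have := h2.mul h2
    norm_num at this
    exact this
  -- D = 1 - b u², N = 1 + a u + b u²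
  have hD : v.Is (1 - b * u ^ 2) 0 := by
    apply QVal.is_one.sub_gt
    have := hb.mul (hux.pow 2).ge
    exact this.gt (by push_cast; linarith)
  have hN : v.Is (1 + a * u + b * u ^ 2) 0 := by
    have h1 : v.Gt (a * u) 0 := (ha.mul hux.ge).gt (by linarith)
    have h2' : v.Gt (b * u ^ 2) 0 := (hb.mul (hux.pow 2).ge).gt (by push_cast; linarith)
    exact (QVal.is_one.add_gt h1).add_gt h2'
  have hD0 := hD.1
  have hN0 := hN.1
  have key : (x ^ 2 - b) ^ 2 / (4 * y ^ 2) = (1 - b * u ^ 2) ^ 2 / (4 * u * (1 + a * u + b * u ^ 2)) := by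
    rw [q, hxu]
    field_simp
  rw [key]
  have hden : v.Is (4 * u * (1 + a * u + b * u ^ 2)) t := by
    have := (h4.mul hux).mul hN
    simpa using this
  have hnum : v.Is ((1 - b * u ^ 2) ^ 2) 0 := by simpa using hD.pow 2
  constructor
  · have := hnum.div hden
    exact this.le' (by linarith)
  · have e1 : ((1 - b * u ^ 2) ^ 2 / (4 * u * (1 + a * u + b * u ^ 2)))⁻¹ - 4 * u =
        4 * u * (a * u + 3 * b * u ^ 2 - b ^ 2 * u ^ 4) / (1 - b * u ^ 2) ^ 2 := by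
      field_simp
      ring
    rw [e1]
    have hbr : v.Ge (a * u + 3 * b * u ^ 2 - b ^ 2 * u ^ 4) t := by
      have h1 : v.Ge (a * u) t := (ha.mul hux.ge).mono (by linarith)
      have h3' : v.Ge (3 : K) 0 := by
        have e : (3 : K) = 2 + 1 := by norm_num
        rw [e]
        exact h2.ge.add QVal.is_one.ge
      have h2' : v.Ge (3 * b * u ^ 2) t := by
        have := (h3'.mul hb).mul (hux.pow 2).ge
        exact this.mono (by push_cast; linarith)
      have h3'' : v.Ge (b ^ 2 * u ^ 4) t := by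
        have := (hb.pow 2).mul (hux.pow 4).ge
        exact this.mono (by push_cast; linarith)
      exact (h1.add h2').sub h3''
    have := ((h4.mul hux).ge.mul hbr).div_is hnum
    exact this.mono (by linarith)


/-- the key estimate for two points with distinct `x`-coordinates -/
lemma inE_add_sub_aux (hW : IsLeg W a b) (ha : v.Ge a 0) (hb : v.Ge b 0) (h2 : v.Is (2 : K) 0)
    {τ : ℚ} (hτ : 0 < τ) {x₁ y₁ x₂ y₂ : K} (h₁ : W.toAffine.Nonsingular x₁ y₁)
    (h₂ : W.toAffine.Nonsingular x₂ y₂) (hx : x₁ ≠ x₂) (hP : v.Le x₁ (-τ)) (hQ : v.Le x₂ (-τ)) :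
    InE v τ (Point.some x₁ y₁ h₁ + Point.some x₂ y₂ h₂) ∧
    InE v τ (Point.some x₁ y₁ h₁ - Point.some x₂ y₂ h₂) ∧
    v.Ge (xi (Point.some x₁ y₁ h₁ + Point.some x₂ y₂ h₂) +
      xi (Point.some x₁ y₁ h₁ - Point.some x₂ y₂ h₂) - 2 * x₁⁻¹ - 2 * x₂⁻¹) (2 * τ) := by
  obtain ⟨z₁, w₁, h₁', z₂, w₂, h₂', e₁, e₂, hS, hPi⟩ := hW.add_sub_of_X_ne h₁ h₂ hx
  rw [e₁, e₂, inE_some, inE_some, xi_some, xi_some]
  have hx₁ := hP.1
  have hx₂ := hQ.1
  set u := x₁⁻¹ with hu
  set w := x₂⁻¹ with hw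
  have hxu : x₁ = u⁻¹ := by rw [hu, inv_inv]
  have hxw : x₂ = w⁻¹ := by rw [hw, inv_inv]
  have hu0 : u ≠ 0 := inv_ne_zero hx₁
  have hw0 : w ≠ 0 := inv_ne_zero hx₂
  have huw : w - u ≠ 0 := by
    intro h
    apply hx
    rw [hxu, hxw]
    have : w = u := by linear_combination h
    rw [this]
  have hu' : v.Ge u τ := (QVal.is_ord (v := v) hx₁).inv.ge' (by linarith [hP.2])
  have hw' : v.Ge w τ := (QVal.is_ord (v := v) hx₂).inv.ge' (by linarith [hQ.2])
  have hbuw : v.Ge (b * u * w) (2 * τ) := by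
    have := (hb.mul hu').mul hw'
    exact this.mono (by linarith)
  have hD : v.Is (1 - b * u * w) 0 := QVal.is_one.sub_gt (hbuw.gt (by linarith))
  have hD0 := hD.1
  have hD2 : v.Is ((1 - b * u * w) ^ 2) 0 := by simpa using hD.pow 2
  have hPi' : z₁ * z₂ = (1 - b * u * w) ^ 2 / (w - u) ^ 2 := by
    rw [hPi, hxu, hxw]
    field_simp
  have hS' : z₁ + z₂ = 2 * ((u + w) * (1 + b * u * w) + 2 * a * u * w) / (w - u) ^ 2 := by
    rw [hS, hxu, hxw]
    field_simp
    ring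
  have hz : z₁ * z₂ ≠ 0 := by
    rw [hPi']
    exact div_ne_zero (pow_ne_zero 2 hD0) (pow_ne_zero 2 huw)
  have hz₁ : z₁ ≠ 0 := left_ne_zero_of_mul hz
  have hz₂ : z₂ ≠ 0 := right_ne_zero_of_mul hz
  have hsum : z₁⁻¹ + z₂⁻¹ = 2 * ((u + w) * (1 + b * u * w) + 2 * a * u * w) / (1 - b * u * w) ^ 2 := by
    have : z₁⁻¹ + z₂⁻¹ = (z₁ + z₂) / (z₁ * z₂) := by field_simp; ring
    rw [this, hS', hPi']
    field_simp
  have hprod : z₁⁻¹ * z₂⁻¹ = (w - u) ^ 2 / (1 - b * u * w) ^ 2 := by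
    rw [← mul_inv, hPi', inv_div]
  have h1buw : v.Ge (1 + b * u * w) 0 := QVal.is_one.ge.add (hbuw.mono (by linarith))
  have hauw : v.Ge (2 * a * u * w) (2 * τ) := by
    have := ((h2.ge.mul ha).mul hu').mul hw'
    exact this.mono (by linarith)
  have hgeS : v.Ge (z₁⁻¹ + z₂⁻¹) τ := by
    rw [hsum]
    have h3 : v.Ge ((u + w) * (1 + b * u * w)) τ := by
      have := (hu'.add hw').mul h1buw
      exact this.mono (by linarith)
    have := (h2.ge.mul (h3.add (hauw.mono (by linarith)))).div_is hD2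
    exact this.mono (by linarith)
  have hgeP : v.Ge (z₁⁻¹ * z₂⁻¹) (2 * τ) := by
    rw [hprod]
    have := ((hw'.sub hu').pow 2).div_is hD2
    exact this.mono (by push_cast; linarith)
  obtain ⟨g₁, g₂⟩ := QVal.np_ge hgeS hgeP
  have conv : ∀ z : K, z ≠ 0 → v.Ge z⁻¹ τ → v.Le z (-τ) := by
    intro z hz hge
    refine ⟨hz, ?_⟩
    rcases hge with h0 | h0
    · exact absurd h0 (inv_ne_zero hz)
    · rw [v.ord_inv hz] at h0
      linarith
  refine ⟨conv z₁ hz₁ g₁, conv z₂ hz₂ g₂, ?_⟩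
  have e3 : z₁⁻¹ + z₂⁻¹ - 2 * u - 2 * w =
      (2 * (u + w) * (3 * b * u * w - b ^ 2 * u ^ 2 * w ^ 2) + 4 * a * u * w) /
        (1 - b * u * w) ^ 2 := by
    have hD2' : (1 - b * u * w) ^ 2 ≠ 0 := pow_ne_zero 2 hD0
    rw [hsum, eq_div_iff hD2', sub_mul, sub_mul, div_mul_cancel₀ _ hD2']
    ring
  rw [e3]
  have h3' : v.Ge (3 : K) 0 := by
    have e : (3 : K) = 2 + 1 := by norm_num
    rw [e]
    exact h2.ge.add QVal.is_one.ge
  have h4' : v.Ge (4 : K) 0 := by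
    have := h2.ge.mul h2.ge
    norm_num at this
    exact this
  have t1 : v.Ge (3 * b * u * w - b ^ 2 * u ^ 2 * w ^ 2) τ := by
    have a1 : v.Ge (3 * b * u * w) τ := by
      have := ((h3'.mul hb).mul hu').mul hw'
      exact this.mono (by linarith)
    have a2 : v.Ge (b ^ 2 * u ^ 2 * w ^ 2) τ := by
      have := ((hb.pow 2).mul (hu'.pow 2)).mul (hw'.pow 2)
      exact this.mono (by push_cast; linarith)
    exact a1.sub a2
  have t2 : v.Ge (2 * (u + w) * (3 * b * u * w - b ^ 2 * u ^ 2 * w ^ 2)) (2 * τ) := by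
    have := (h2.ge.mul (hu'.add hw')).mul t1
    exact this.mono (by linarith)
  have t3 : v.Ge (4 * a * u * w) (2 * τ) := by
    have := ((h4'.mul ha).mul hu').mul hw'
    exact this.mono (by linarith)
  have := (t2.add t3).div_is hD2
  exact this.mono (by linarith)

/-- **Part A1.** `E_τ` is closed under `±` and `ξ(P+Q) + ξ(P-Q) ≡ 2ξ(P) + 2ξ(Q)` mod order `2τ`. -/
theorem inE_add_sub (hW : IsLeg W a b) (ha : v.Ge a 0) (hb : v.Ge b 0) (h2 : v.Is (2 : K) 0)
    {τ : ℚ} (hτ : 0 < τ) {P Q : W.toAffine.Point} (hP : InE v τ P) (hQ : InE v τ Q) :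
    InE v τ (P + Q) ∧ InE v τ (P - Q) ∧
      v.Ge (xi (P + Q) + xi (P - Q) - 2 * xi P - 2 * xi Q) (2 * τ) := by
  rcases P with _ | ⟨x₁, y₁, h₁⟩
  · have e0 : (Point.zero : W.toAffine.Point) = 0 := rfl
    rw [e0, zero_add, zero_sub, xi_neg hW, xi_zero]
    refine ⟨hQ, hQ.neg hW, ?_⟩
    have : xi Q + xi Q - 2 * 0 - 2 * xi Q = 0 := by ring
    rw [this]
    exact QVal.ge_zero'
  rcases Q with _ | ⟨x₂, y₂, h₂⟩
  · have e0 : (Point.zero : W.toAffine.Point) = 0 := rfl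
    rw [e0, add_zero, sub_zero, xi_zero]
    refine ⟨hP, hP, ?_⟩
    have : xi (Point.some x₁ y₁ h₁) + xi (Point.some x₁ y₁ h₁) - 2 * xi (Point.some x₁ y₁ h₁) -
        2 * 0 = 0 := by ring
    rw [this]
    exact QVal.ge_zero'
  have hP' : v.Le x₁ (-τ) := hP
  have hQ' : v.Le x₂ (-τ) := hQ
  by_cases hx : x₁ = x₂
  · subst hx
    have h4 : v.Is (4 : K) 0 := by
      have := h2.mul h2
      norm_num at this
      exact this
    rcases Y_eq_of_X_eq h₁.1 h₂.1 rfl with hy | hy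
    · subst hy
      obtain ⟨i1, i2⟩ := inE_two_smul_aux hW ha hb h2 hτ h₁ hP'
      rw [sub_self, xi_zero, xi_some]
      refine ⟨i1, trivial, ?_⟩
      convert i2 using 1
      ring
    · rw [hW.negY_eq] at hy
      subst hy
      obtain ⟨hn, en⟩ := hW.neg_some h₂
      have e1 : Point.some x₁ (-y₂) h₁ = -Point.some x₁ y₂ h₂ := by
        rw [en]
      rw [e1, neg_add_cancel, xi_zero, xi_neg hW, xi_some]
      have e2 : -Point.some x₁ y₂ h₂ - Point.some x₁ y₂ h₂ =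
          -(Point.some x₁ y₂ h₂ + Point.some x₁ y₂ h₂) := by abel
      rw [e2, xi_neg hW]
      obtain ⟨i1, i2⟩ := inE_two_smul_aux hW ha hb h2 hτ h₂ hQ'
      refine ⟨trivial, i1.neg hW, ?_⟩
      convert i2 using 1
      ring
  · exact inE_add_sub_aux hW ha hb h2 hτ h₁ h₂ hx hP' hQ'

/-- **Part A2.** `ξ(kP) ≡ k² ξ(P)` modulo order `2τ`. -/
theorem xi_nsmul (hW : IsLeg W a b) (ha : v.Ge a 0) (hb : v.Ge b 0) (h2 : v.Is (2 : K) 0)
    {τ : ℚ} (hτ : 0 < τ) {P : W.toAffine.Point} (hP : InE v τ P) (k : ℕ) :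
    InE v τ (k • P) ∧ v.Ge (xi (k • P) - (k : K) ^ 2 * xi P) (2 * τ) := by
  have main : ∀ k : ℕ, (InE v τ (k • P) ∧ v.Ge (xi (k • P) - (k : K) ^ 2 * xi P) (2 * τ)) ∧
      (InE v τ ((k + 1) • P) ∧ v.Ge (xi ((k + 1) • P) - ((k + 1 : ℕ) : K) ^ 2 * xi P) (2 * τ)) := by
    intro k
    induction k with
    | zero =>
      refine ⟨⟨by rw [zero_smul]; trivial, ?_⟩, ⟨by rw [zero_add, one_smul]; exact hP, ?_⟩⟩
      · rw [zero_smul, xi_zero]
        simp only [Nat.cast_zero, ne_eq, OfNat.ofNat_ne_zero, not_false_eq_true, zero_pow, zero_mul,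
          sub_zero]
        exact QVal.ge_zero'
      · rw [zero_add, one_smul]
        simp only [Nat.cast_one, one_pow, one_mul, sub_self]
        exact QVal.ge_zero'
    | succ k ih =>
      obtain ⟨⟨i0, g0⟩, ⟨i1, g1⟩⟩ := ih
      refine ⟨⟨i1, g1⟩, ?_⟩
      obtain ⟨j1, j2, j3⟩ := inE_add_sub hW ha hb h2 hτ i1 hP
      have e1 : (k + 1) • P + P = (k + 1 + 1) • P := by rw [add_smul (k + 1) 1 P, one_smul]
      have e2 : (k + 1) • P - P = k • P := by rw [add_smul, one_smul, add_sub_cancel_right]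
      rw [e1, e2] at j3
      rw [e1] at j1
      refine ⟨j1, ?_⟩
      have : xi ((k + 1 + 1) • P) - ((k + 1 + 1 : ℕ) : K) ^ 2 * xi P =
          (xi ((k + 1 + 1) • P) + xi (k • P) - 2 * xi ((k + 1) • P) - 2 * xi P) -
          (xi (k • P) - (k : K) ^ 2 * xi P) +
          2 * (xi ((k + 1) • P) - ((k + 1 : ℕ) : K) ^ 2 * xi P) := by
        push_cast
        ring
      rw [this]
      exact (j3.sub g0).add ((h2.ge.mul g1).mono (by linarith))
  exact (main k).1

/-- **Part A3.** `E₁` has no nonzero `n`-torsion when `n` is a unit. -/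
theorem eq_zero_of_inE_of_nsmul (hW : IsLeg W a b) (ha : v.Ge a 0) (hb : v.Ge b 0)
    (h2 : v.Is (2 : K) 0) {τ : ℚ} (hτ : 0 < τ) {P : W.toAffine.Point} (hP : InE v τ P)
    {n : ℕ} (hn : v.Is (n : K) 0) (hnP : n • P = 0) : P = 0 := by
  rcases P with _ | ⟨x, y, hxy⟩
  · rfl
  · exfalso
    have hP' : v.Le x (-τ) := hP
    -- work at the exact depth t = -ord x
    set t := -v.ord x with ht
    have ht0 : 0 < t := by rw [ht]; linarith [hP'.2]
    have hP'' : InE v t (Point.some x y hxy) := by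
      rw [inE_some]
      exact ⟨hP'.1, by rw [ht]; linarith⟩
    obtain ⟨_, g⟩ := xi_nsmul hW ha hb h2 ht0 hP'' n
    rw [hnP, xi_zero, xi_some, zero_sub] at g
    have hu : v.Is x⁻¹ t := (QVal.is_ord (v := v) hP'.1).inv
    have : v.Is (-((n : K) ^ 2 * x⁻¹)) t := by
      have := ((hn.pow 2).mul hu).neg
      simpa using this
    exact this.not_ge g (by linarith)

end

end Fermat.Agent.S05Lib
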