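import Fermat.Agent.Lib.S05.ClosePoints
import Fermat.Agent.Lib.S05.Node

/-!
# Inertia acts trivially on prime-to-residue-characteristic torsion (S05, local main theorems)

`W : y² = x³ + a x² + b x` over a field `K` with a `ℚ`-valued valuation `v`, `σ : K →+* K`
an "inertia-like" endomorphism (`ord (σ x) = ord x`, `σ x - x` of positive order for integral `x`)
acting on points through `T`.  We prove `T P = P` for `n`-torsion points (`n` a unit) in the good
reduction case and in the multiplicative case `b = e r`, `e = ε ^ n`.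
-/

set_option autoImplicit false
set_option linter.unusedSectionVars false
set_option linter.unusedVariables false

open WeierstrassCurve WeierstrassCurve.Affine

namespace Fermat.Agent.S05Lib

variable {K : Type*} [Field K] [DecidableEq K]

/-- A point in "good position": `O`, or in the kernel of reduction, or integral with nonsingular
reduction. -/
def GoodPos (v : QVal K) (a b : K) {W : WeierstrassCurve K} : W.toAffine.Point → Prop
  | .zero => True
  | .some x y _ => v.Lt x 0 ∨ (v.Ge x 0 ∧ (v.Is y 0 ∨ v.Is (3 * x ^ 2 + 2 * a * x + b) 0))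

/-- The data of an inertia-like endomorphism acting on the points of `W`. -/
structure InertiaLike (v : QVal K) (W : WeierstrassCurve K) (σ : K →+* K)
    (T : W.toAffine.Point →+ W.toAffine.Point) : Prop where
  map_some : ∀ (x y : K) (h : W.toAffine.Nonsingular x y),
    ∃ h', T (Point.some x y h) = Point.some (σ x) (σ y) h'
  ord_map : ∀ x, v.ord (σ x) = v.ord x
  inert : ∀ x, v.Ge x 0 → v.Gt (σ x - x) 0

section

variable {v : QVal K} {W : WeierstrassCurve K} {a b : K} {σ : K →+* K}
  {T : W.toAffine.Point →+ W.toAffine.Point}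

lemma InertiaLike.is_map (hT : InertiaLike v W σ T) {x : K} {t : ℚ} (hx : v.Is x t) :
    v.Is (σ x) t :=
  ⟨(map_ne_zero σ).mpr hx.1, by rw [hT.ord_map, hx.2]⟩

/-- `T P₀ - P₀` lies in the kernel of reduction for `P₀` in good position. -/
theorem exists_inE_map_sub (hW : IsLeg W a b) (ha : v.Ge a 0) (hb : v.Ge b 0)
    (h2 : v.Is (2 : K) 0) (hT : InertiaLike v W σ T) {P₀ : W.toAffine.Point}
    (hP₀ : GoodPos v a b P₀) : ∃ τ : ℚ, 0 < τ ∧ InE v τ (T P₀ - P₀) := by
  rcases P₀ with _ | ⟨x, y, hxy⟩
  · refine ⟨1, one_pos, ?_⟩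
    have e0 : (Point.zero : W.toAffine.Point) = 0 := rfl
    rw [e0, map_zero, sub_zero]
    trivial
  · obtain ⟨h', e⟩ := hT.map_some x y hxy
    rw [e]
    rcases hP₀ with hlt | ⟨hge, hns⟩
    · have hτ : 0 < -v.ord x := by linarith [hlt.2]
      refine ⟨-v.ord x, hτ, ?_⟩
      have i1 : InE v (-v.ord x) (Point.some x y hxy) := by
        rw [inE_some]
        exact ⟨hlt.1, by linarith⟩
      have i2 : InE v (-v.ord x) (Point.some (σ x) (σ y) h') := by
        rw [inE_some]
        exact ⟨(map_ne_zero σ).mpr hlt.1, by rw [hT.ord_map]; linarith⟩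
      exact (inE_add_sub hW ha hb h2 hτ i2 i1).2.1
    · have hy : v.Ge y 0 := y_integral hW ha hb hxy hge
      exact exists_inE_sub_of_close hW ha hb h2 hxy h' hge hns (hT.inert x hge) (hT.inert y hy)

/-- If `P = P₀ + R` with `P₀` in good position and `R` fixed by `T`, and `n • P = 0` with `n` a
unit, then `T P = P`. -/
theorem map_eq_of_goodPos_add (hW : IsLeg W a b) (ha : v.Ge a 0) (hb : v.Ge b 0)
    (h2 : v.Is (2 : K) 0) (hT : InertiaLike v W σ T) {n : ℕ} (hn : v.Is (n : K) 0)
    {P₀ R : W.toAffine.Point} (hP₀ : GoodPos v a b P₀) (hR : T R = R)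
    (hP : n • (P₀ + R) = 0) : T (P₀ + R) = P₀ + R := by
  obtain ⟨τ, hτ, hin⟩ := exists_inE_map_sub hW ha hb h2 hT hP₀
  have e1 : T (P₀ + R) - (P₀ + R) = T P₀ - P₀ := by
    rw [map_add, hR]
    abel
  have e2 : n • (T P₀ - P₀) = 0 := by
    rw [← e1, smul_sub, ← map_nsmul, hP, map_zero, sub_zero]
  have := eq_zero_of_inE_of_nsmul hW ha hb h2 hτ hin hn e2
  rw [← e1] at this
  exact sub_eq_zero.mp this

/-- **Good reduction.** -/
theorem map_eq_of_good (hW : IsLeg W a b) (ha : v.Ge a 0) (hb : v.Ge b 0)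
    (h2 : v.Is (2 : K) 0) (hT : InertiaLike v W σ T) {n : ℕ} (hn : v.Is (n : K) 0)
    (hgood : ∀ x y : K, W.toAffine.Nonsingular x y → v.Ge x 0 →
      v.Is y 0 ∨ v.Is (3 * x ^ 2 + 2 * a * x + b) 0)
    {P : W.toAffine.Point} (hP : n • P = 0) : T P = P := by
  have hgp : GoodPos v a b P := by
    rcases P with _ | ⟨x, y, hxy⟩
    · trivial
    · rcases QVal.lt_or_ge (v := v) x 0 with h | h
      · exact Or.inl h
      · exact Or.inr ⟨h, hgood x y hxy h⟩
  have := map_eq_of_goodPos_add hW ha hb h2 hT hn (R := 0) hgp (map_zero T) (by rwa [add_zero])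
  rwa [add_zero] at this

end

section node

variable {v : QVal K} {W : WeierstrassCurve K} {a b : K} {σ : K →+* K}
  {T : W.toAffine.Point →+ W.toAffine.Point} {h η : ℚ} {ε : K} {n : ℕ}
  (hW : IsLeg W a b) (ha : v.Is a 0) (hb : v.Is b h) (hh : 0 < h) (h2 : v.Is (2 : K) 0)
  (hT : InertiaLike v W σ T) (hn : v.Is (n : K) 0)
  (hsq : ∀ z : K, ∃ y, y ^ 2 = z) (hε : v.Is ε η) (hη : 0 < η) (hhη : h = n * η)
  (hσε : σ ε = ε) (hσa : σ a = a) (hσb : σ b = b)
include hW ha hb hh h2 hT hn hsq hε hη hhη hσε hσa hσb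

/-- existence of `T`-fixed points in every admissible component -/
lemma exists_fixed_point {j : ℚ} (hj0 : 0 < j) (hjh : j < h) (hk : ∃ k : ℤ, (n : ℚ) * j = 2 * h * k) :
    ∃ R : W.toAffine.Point, T R = R ∧ fP v h R = j := by
  obtain ⟨k, hk⟩ := hk
  have hn0 : (n : ℚ) ≠ 0 := by
    have : (n : K) ≠ 0 := hn.1
    intro h0
    apply this
    have : n = 0 := by exact_mod_cast h0
    rw [this, Nat.cast_zero]
  have hj : j = 2 * η * k := by
    have : (n : ℚ) * j = n * (2 * η * k) := by rw [hk, hhη]; ring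
    exact mul_left_cancel₀ hn0 this
  have hkpos : 0 < k := by
    by_contra hcon
    push Not at hcon
    have : (k : ℚ) ≤ 0 := by exact_mod_cast hcon
    nlinarith
  obtain ⟨m, rfl⟩ : ∃ m : ℕ, (m : ℤ) = k := ⟨k.toNat, Int.toNat_of_nonneg hkpos.le⟩
  set x := ε ^ (2 * m) with hx
  have hxi : v.Is x j := by
    have := hε.pow (2 * m)
    rw [hj]
    convert this using 1
    push_cast
    ring
  have hσx : σ x = x := by rw [hx, map_pow, hσε]
  have hq : v.Is (x ^ 2 + a * x + b) j := by
    have h1 : v.Is (a * x) j := by simpa using ha.mul hxi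
    exact (h1.add_gt' (hxi.sq.gt (by linarith))).add_gt (hb.gt hjh)
  obtain ⟨y, hy⟩ := hsq (x ^ 3 + a * x ^ 2 + b * x)
  have hc : v.Is (x ^ 3 + a * x ^ 2 + b * x) (j + j) := by
    have := hxi.mul hq
    convert this using 1
    ring
  have hy0 : y ≠ 0 := by
    intro h0
    rw [h0] at hy
    apply hc.1
    rw [← hy]
    ring
  have hyi : v.Is y j := by
    refine ⟨hy0, ?_⟩
    have := (QVal.is_ord (v := v) hy0).sq
    rw [hy] at this
    have := this.unique hc
    linarith
  have hns : W.toAffine.Nonsingular x y := by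
    rw [Affine.nonsingular_iff]
    refine ⟨(hW.equation_iff x y).mpr hy, Or.inr ?_⟩
    rw [hW.a₁, hW.a₃]
    intro h0
    have : 2 * y = 0 := by linear_combination h0
    exact (mul_ne_zero h2.1 hy0) this
  refine ⟨Point.some x y hns, ?_, ?_⟩
  · obtain ⟨h', e⟩ := hT.map_some x y hns
    rw [e]
    have hσy : σ y = y := by
      have hsq' : (σ y) ^ 2 = y ^ 2 := by
        rw [← map_pow, hy]
        simp only [map_add, map_mul, map_pow, hσx, hσa, hσb]
      have : (σ y - y) * (σ y + y) = 0 := by linear_combination hsq'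
      rcases mul_eq_zero.mp this with h0 | h0
      · exact sub_eq_zero.mp h0
      · exfalso
        have hneg : σ y = -y := by linear_combination h0
        have ht : v.Is (y / x) 0 := by
          have := hyi.div hxi
          simpa using this
        have hin := hT.inert (y / x) ht.ge
        have e2 : σ (y / x) - y / x = -(2 * (y / x)) := by
          rw [map_div₀, hσx, hneg]
          ring
        rw [e2] at hin
        have : v.Is (-(2 * (y / x))) 0 := by
          have := (h2.mul ht).neg
          simpa using this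
        exact this.not_gt hin le_rfl
    simp only [hσx, hσy]
  · rw [fP_some]
    exact fx_of_is hxi hj0.le hjh.le

/-- **Multiplicative reduction with `b` of order `h = n η`, `η` the order of a `σ`-fixed
element.** -/
theorem map_eq_of_node
    (hnode : ∀ x y : K, W.toAffine.Nonsingular x y → v.Is x 0 →
      v.Is y 0 ∨ v.Is (3 * x ^ 2 + 2 * a * x + b) 0)
    {P : W.toAffine.Point} (hP : n • P = 0) : T P = P := by
  have hh' := hh.le
  set j := fP v h P with hj
  have hj0 : 0 ≤ j := fP_nonneg hh' P
  have hjh : j ≤ h := fP_le hh' P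
  -- a fixed point in the same component
  have hR : ∃ R : W.toAffine.Point, T R = R ∧ fP v h R = j := by
    rcases hj0.lt_or_eq with hpos | hzero
    · rcases hjh.lt_or_eq with hlt | heq
      · exact exists_fixed_point hW ha hb hh h2 hT hn hsq hε hη hhη hσε hσa hσb hpos hlt
          (nsmul_fP_mem hW ha hb hh h2 P hP)
      · -- the two-torsion point `(0, 0)`
        have hns : W.toAffine.Nonsingular 0 0 := by
          rw [Affine.nonsingular_zero]
          exact ⟨hW.a₆, Or.inr (by rw [hW.a₄]; exact hb.1)⟩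
        refine ⟨Point.some 0 0 hns, ?_, ?_⟩
        · obtain ⟨h', e⟩ := hT.map_some 0 0 hns
          rw [e]
          simp only [map_zero]
        · rw [fP_some, fx_of_ge hh' (Or.inl rfl), heq]
    · exact ⟨0, map_zero T, by rw [fP_zero, hzero]⟩
  obtain ⟨R, hTR, hfR⟩ := hR
  have pl := pairLaw_points hW ha hb hh h2 P R
  unfold PairLaw at pl
  rw [hfR, ← hj, sub_self, abs_zero] at pl
  -- one of `P ± R` lies in the identity component
  have goodPos_of_fP : ∀ P₀ : W.toAffine.Point, fP v h P₀ = 0 → GoodPos v a b P₀ := by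
    intro P₀ h0
    rcases P₀ with _ | ⟨x, y, hxy⟩
    · trivial
    · rw [fP_some] at h0
      have hle : v.Le x 0 := by
        rcases fx_cases v h x with c | ⟨t, ht0, hth, c⟩ | c
        · exact c
        · rw [fx_of_is c ht0.le hth.le] at h0
          linarith
        · rw [fx_of_ge hh' c] at h0
          linarith
      rcases hle.2.lt_or_eq with hlt | heq
      · exact Or.inl ⟨hle.1, hlt⟩
      · have hx0 : v.Is x 0 := ⟨hle.1, heq⟩
        exact Or.inr ⟨hx0.ge, hnode x y hxy hx0⟩
  have ha' : v.Ge a 0 := ha.ge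
  have hb' : v.Ge b 0 := hb.ge' hh'
  rcases pl with ⟨_, pb⟩ | ⟨pa, _⟩
  · -- `P - R` is in good position
    have hgp := goodPos_of_fP (P - R) pb
    have := map_eq_of_goodPos_add hW ha' hb' h2 hT hn hgp hTR (by rwa [sub_add_cancel])
    rwa [sub_add_cancel] at this
  · -- `P + R` is in good position
    have hgp := goodPos_of_fP (P + R) pa
    have hTR' : T (-R) = -R := by rw [map_neg, hTR]
    have := map_eq_of_goodPos_add hW ha' hb' h2 hT hn hgp hTR' (by rwa [add_neg_cancel_right])
    rwa [add_neg_cancel_right] at this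

end node

end Fermat.Agent.S05Lib
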