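import Fermat.Agent.Lib.S05.QVal

/-!
# The pair law at a node: valuations of the two roots (S05, part C, valuation-theoretic core)

Let `ord a = 0`, `ord b = h > 0`, `ord 2 = 0`.  For `x₁ ≠ x₂` let `z₁, z₂` satisfy
`z₁ + z₂ = 2((x₁+x₂)(x₁x₂+b) + 2a x₁x₂)/(x₁-x₂)²` and `z₁ z₂ = (x₁x₂-b)²/(x₁-x₂)²`.
With `fx x = clamp (ord x) 0 h` (and `fx 0 = h`) the unordered pair `{fx z₁, fx z₂}` equals
`{fx x₁ ⊕ fx x₂, |fx x₁ - fx x₂|}` where `s ⊕ t` is `s + t` reflected at `h`.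
-/

set_option autoImplicit false
set_option linter.unusedSectionVars false
set_option linter.unusedVariables false

namespace Fermat.Agent.S05Lib

variable {K : Type*} [Field K]

open Classical in
/-- clamped order of an `x`-coordinate -/
noncomputable def fx (v : QVal K) (h : ℚ) (x : K) : ℚ :=
  if x = 0 then h else max 0 (min h (v.ord x))

/-- addition reflected at `h` -/
noncomputable def oplus (h s t : ℚ) : ℚ := if s + t ≤ h then s + t else 2 * h - (s + t)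

/-- the unordered pair law -/
def PairLaw (h A B s t : ℚ) : Prop :=
  (A = oplus h s t ∧ B = |s - t|) ∨ (A = |s - t| ∧ B = oplus h s t)

lemma PairLaw.swap {h A B s t : ℚ} (H : PairLaw h A B s t) : PairLaw h B A s t := by
  rcases H with H | H
  · exact Or.inr ⟨H.2, H.1⟩
  · exact Or.inl ⟨H.2, H.1⟩

lemma oplus_comm (h s t : ℚ) : oplus h s t = oplus h t s := by
  unfold oplus
  rw [add_comm]

lemma PairLaw.symm {h A B s t : ℚ} (H : PairLaw h A B s t) : PairLaw h A B t s := by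
  unfold PairLaw at *
  rw [oplus_comm h t s, abs_sub_comm t s]
  exact H

section fx

variable {v : QVal K} {h : ℚ} {x : K} {t : ℚ}

lemma fx_nonneg (hh : 0 ≤ h) : 0 ≤ fx v h x := by
  unfold fx
  split_ifs
  · exact hh
  · exact le_max_left _ _

lemma fx_le (hh : 0 ≤ h) : fx v h x ≤ h := by
  unfold fx
  split_ifs
  · exact le_rfl
  · exact max_le hh (min_le_left _ _)

lemma fx_of_le (hh : 0 ≤ h) (hx : v.Le x 0) : fx v h x = 0 := by
  unfold fx
  rw [if_neg hx.1]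
  apply max_eq_left
  exact (min_le_right _ _).trans hx.2

lemma fx_of_is (hx : v.Is x t) (h0 : 0 ≤ t) (h1 : t ≤ h) : fx v h x = t := by
  unfold fx
  rw [if_neg hx.1, hx.2, min_eq_right h1, max_eq_right h0]

lemma fx_of_is_le (hh : 0 ≤ h) (hx : v.Is x t) (h0 : t ≤ 0) : fx v h x = 0 :=
  fx_of_le hh (hx.le' h0)

lemma fx_of_ge (hh : 0 ≤ h) (hx : v.Ge x h) : fx v h x = h := by
  unfold fx
  split_ifs with h0
  · rfl
  · have := hx.resolve_left h0
    rw [min_eq_left this, max_eq_right hh]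

/-- classification of an element -/
lemma fx_cases (v : QVal K) (h : ℚ) (x : K) :
    v.Le x 0 ∨ (∃ t, 0 < t ∧ t < h ∧ v.Is x t) ∨ v.Ge x h := by
  by_cases hx : x = 0
  · exact Or.inr (Or.inr (Or.inl hx))
  · rcases le_or_gt (v.ord x) 0 with h1 | h1
    · exact Or.inl ⟨hx, h1⟩
    · rcases lt_or_ge (v.ord x) h with h2 | h2
      · exact Or.inr (Or.inl ⟨_, h1, h2, hx, rfl⟩)
      · exact Or.inr (Or.inr (Or.inr h2))

end fx

section roots

variable {v : QVal K} {h : ℚ} {a b x₁ x₂ z₁ z₂ : K}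

/-- the data of the two roots -/
structure RootData (a b x₁ x₂ z₁ z₂ : K) : Prop where
  ne : x₁ ≠ x₂
  sum : z₁ + z₂ = 2 * ((x₁ + x₂) * (x₁ * x₂ + b) + 2 * a * x₁ * x₂) / (x₁ - x₂) ^ 2
  prod : z₁ * z₂ = (x₁ * x₂ - b) ^ 2 / (x₁ - x₂) ^ 2

lemma RootData.symm (H : RootData a b x₁ x₂ z₁ z₂) : RootData a b x₂ x₁ z₁ z₂ where
  ne := H.ne.symm
  sum := by
    rw [H.sum]
    have : (x₂ - x₁) ^ 2 = (x₁ - x₂) ^ 2 := by ring
    rw [this]
    congr 1
    ring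
  prod := by
    rw [H.prod]
    have : (x₂ - x₁) ^ 2 = (x₁ - x₂) ^ 2 := by ring
    rw [this]
    congr 1
    ring

lemma RootData.swap (H : RootData a b x₁ x₂ z₁ z₂) : RootData a b x₁ x₂ z₂ z₁ where
  ne := H.ne
  sum := by rw [add_comm]; exact H.sum
  prod := by rw [mul_comm]; exact H.prod

variable (H : RootData a b x₁ x₂ z₁ z₂) (ha : v.Is a 0) (hb : v.Is b h) (hh : 0 < h)
  (h2 : v.Is (2 : K) 0)
include H ha hb hh h2

/-- orders of sum and product from orders of numerators and of the difference -/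
lemma RootData.sum_is {n d : ℚ} (hN : v.Is ((x₁ + x₂) * (x₁ * x₂ + b) + 2 * a * x₁ * x₂) n)
    (hD : v.Is (x₁ - x₂) d) : v.Is (z₁ + z₂) (n - 2 * d) := by
  rw [H.sum]
  have := (h2.mul hN).div hD.sq
  convert this using 1
  ring

lemma RootData.sum_ge {n d : ℚ} (hN : v.Ge ((x₁ + x₂) * (x₁ * x₂ + b) + 2 * a * x₁ * x₂) n)
    (hD : v.Is (x₁ - x₂) d) : v.Ge (z₁ + z₂) (n - 2 * d) := by
  rw [H.sum]
  have := (h2.ge.mul hN).div_is hD.sq
  convert this using 1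
  ring

lemma RootData.prod_is {m d : ℚ} (hM : v.Is (x₁ * x₂ - b) m) (hD : v.Is (x₁ - x₂) d) :
    v.Is (z₁ * z₂) (2 * m - 2 * d) := by
  rw [H.prod]
  exact hM.sq.div hD.sq

lemma RootData.prod_ge {m d : ℚ} (hM : v.Ge (x₁ * x₂ - b) m) (hD : v.Is (x₁ - x₂) d) :
    v.Ge (z₁ * z₂) (2 * m - 2 * d) := by
  rw [H.prod]
  exact hM.sq.div_is hD.sq

lemma RootData.numer_eq :
    (x₁ + x₂) * (x₁ * x₂ + b) + 2 * a * x₁ * x₂ =
      x₁ * x₂ * (x₁ + x₂ + 2 * a) + b * (x₁ + x₂) := by ring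

/-- Case I.a: both `x`'s have order `≤ 0`. -/
lemma RootData.case_le_le (h₁ : v.Le x₁ 0) (h₂ : v.Le x₂ 0) : v.Le z₁ 0 ∧ v.Le z₂ 0 := by
  -- WLOG `ord x₁ ≤ ord x₂`
  have main : ∀ {x₁ x₂ : K}, RootData a b x₁ x₂ z₁ z₂ → v.Le x₁ 0 → v.Le x₂ 0 →
      v.ord x₁ ≤ v.ord x₂ → v.Le z₁ 0 ∧ v.Le z₂ 0 := by
    intro x₁ x₂ H h₁ h₂ hle
    have i₁ := QVal.is_ord (v := v) h₁.1
    have i₂ := QVal.is_ord (v := v) h₂.1
    set α := v.ord x₁ with hα
    set β := v.ord x₂ with hβ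
    have hα0 : α ≤ 0 := h₁.2
    have hβ0 : β ≤ 0 := h₂.2
    have hD0 : x₁ - x₂ ≠ 0 := sub_ne_zero.mpr H.ne
    have hD := QVal.is_ord (v := v) hD0
    have hDge : v.Ge (x₁ - x₂) α := i₁.ge.sub (i₂.ge' hle)
    have hd : α ≤ v.ord (x₁ - x₂) := hDge.resolve_left hD0
    have hM : v.Is (x₁ * x₂ - b) (α + β) := (i₁.mul i₂).sub_gt (hb.gt (by linarith))
    have hN : v.Ge ((x₁ + x₂) * (x₁ * x₂ + b) + 2 * a * x₁ * x₂) (α + β + α) := by
      rw [H.numer_eq ha hb hh h2]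
      have h2a : v.Ge (2 * a) α := by
        have := h2.mul ha
        exact this.ge' (by linarith)
      have t1 : v.Ge (x₁ + x₂ + 2 * a) α := (i₁.ge.add (i₂.ge' hle)).add h2a
      have t2 : v.Ge (x₁ * x₂ * (x₁ + x₂ + 2 * a)) (α + β + α) := (i₁.mul i₂).ge.mul t1
      have t3 : v.Ge (b * (x₁ + x₂)) (α + β + α) := by
        have := hb.ge.mul (i₁.ge.add (i₂.ge' hle))
        exact this.mono (by linarith)
      exact t2.add t3
    have hP := H.prod_is ha hb hh h2 hM hD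
    have hS := H.sum_ge ha hb hh h2 hN hD
    exact QVal.np_le hP hS (by linarith) (by linarith)
  rcases le_total (v.ord x₁) (v.ord x₂) with hle | hle
  · exact main H h₁ h₂ hle
  · exact main H.symm h₂ h₁ hle

/-- Case I.b: `ord x₁ ≤ 0` and `0 < ord x₂ = β < h`. -/
lemma RootData.case_le_mid {β : ℚ} (h₁ : v.Le x₁ 0) (h₂ : v.Is x₂ β) (hβ0 : 0 < β) (hβh : β < h) :
    v.Is z₁ β ∧ v.Is z₂ β := by
  have i₁ := QVal.is_ord (v := v) h₁.1
  set α := v.ord x₁ with hα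
  have hα0 : α ≤ 0 := h₁.2
  have hD : v.Is (x₁ - x₂) α := i₁.sub_gt (h₂.gt (by linarith))
  have hM : v.Is (x₁ * x₂ - b) (α + β) := (i₁.mul h₂).sub_gt (hb.gt (by linarith))
  have hN : v.Ge ((x₁ + x₂) * (x₁ * x₂ + b) + 2 * a * x₁ * x₂) (α + β + α) := by
    rw [H.numer_eq ha hb hh h2]
    have h2a : v.Ge (2 * a) α := by
      have := h2.mul ha
      exact this.ge' (by linarith)
    have t1 : v.Ge (x₁ + x₂ + 2 * a) α := (i₁.ge.add (h₂.ge' (by linarith))).add h2a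
    have t2 : v.Ge (x₁ * x₂ * (x₁ + x₂ + 2 * a)) (α + β + α) := (i₁.mul h₂).ge.mul t1
    have t3 : v.Ge (b * (x₁ + x₂)) (α + β + α) := by
      have := hb.ge.mul (i₁.ge.add (h₂.ge' (by linarith)))
      exact this.mono (by linarith)
    exact t2.add t3
  have hP := H.prod_is ha hb hh h2 hM hD
  have hS := H.sum_ge ha hb hh h2 hN hD
  exact QVal.np_eq (hS.mono (by linarith)) (hP.congr (by ring))

/-- Case I.c: `ord x₁ ≤ 0` and `ord x₂ ≥ h`. -/
lemma RootData.case_le_top (h₁ : v.Le x₁ 0) (h₂ : v.Ge x₂ h) : v.Ge z₁ h ∧ v.Ge z₂ h := by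
  have i₁ := QVal.is_ord (v := v) h₁.1
  set α := v.ord x₁ with hα
  have hα0 : α ≤ 0 := h₁.2
  have hD : v.Is (x₁ - x₂) α := i₁.sub_gt (h₂.gt (by linarith))
  have hM : v.Ge (x₁ * x₂ - b) (α + h) := (i₁.ge.mul h₂).sub (hb.ge' (by linarith))
  have hN : v.Ge ((x₁ + x₂) * (x₁ * x₂ + b) + 2 * a * x₁ * x₂) (α + h + α) := by
    rw [H.numer_eq ha hb hh h2]
    have h2a : v.Ge (2 * a) α := by
      have := h2.mul ha
      exact this.ge' (by linarith)
    have t1 : v.Ge (x₁ + x₂ + 2 * a) α := (i₁.ge.add (h₂.mono (by linarith))).add h2a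
    have t2 : v.Ge (x₁ * x₂ * (x₁ + x₂ + 2 * a)) (α + h + α) := (i₁.ge.mul h₂).mul t1
    have t3 : v.Ge (b * (x₁ + x₂)) (α + h + α) := by
      have := hb.ge.mul (i₁.ge.add (h₂.mono (by linarith)))
      exact this.mono (by linarith)
    exact t2.add t3
  have hP := H.prod_ge ha hb hh h2 hM hD
  have hS := H.sum_ge ha hb hh h2 hN hD
  exact QVal.np_ge (hS.mono (by linarith)) (hP.mono (by linarith))

/-- the numerator of the sum for two elements of positive order -/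
lemma RootData.numer_is_of_pos {α β : ℚ} (h₁ : v.Is x₁ α) (h₂ : v.Ge x₂ β) (hα : 0 < α)
    (hβ : 0 < β) : v.Is (x₁ + x₂ + 2 * a) 0 := by
  have h2a : v.Is (2 * a) 0 := by simpa using h2.mul ha
  have : v.Gt (x₁ + x₂) 0 := (h₁.gt hα).add (h₂.gt hβ)
  exact h2a.add_gt' this

/-- Case II.a: `0 < α < β < h`. -/
lemma RootData.case_mid_mid_lt {α β : ℚ} (h₁ : v.Is x₁ α) (h₂ : v.Is x₂ β) (hα : 0 < α)
    (hαβ : α < β) (hβ : β < h) :
    (v.Is z₁ (β - α) ∧ fx v h z₂ = oplus h α β) ∨ (v.Is z₂ (β - α) ∧ fx v h z₁ = oplus h α β) := by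
  have hD : v.Is (x₁ - x₂) α := h₁.sub_gt (h₂.gt hαβ)
  have hu := H.numer_is_of_pos ha hb hh h2 h₁ h₂.ge hα (by linarith)
  have hN : v.Is ((x₁ + x₂) * (x₁ * x₂ + b) + 2 * a * x₁ * x₂) (α + β) := by
    rw [H.numer_eq ha hb hh h2]
    have t2 : v.Is (x₁ * x₂ * (x₁ + x₂ + 2 * a)) (α + β) := by simpa using (h₁.mul h₂).mul hu
    have t3 : v.Gt (b * (x₁ + x₂)) (α + β) := by
      have := hb.ge.mul (h₁.ge.add (h₂.ge' hαβ.le))
      exact this.gt (by linarith)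
    exact t2.add_gt t3
  have hS := H.sum_is ha hb hh h2 hN hD
  have hS' : v.Is (z₁ + z₂) (β - α) := hS.congr (by ring)
  rcases lt_trichotomy (α + β) h with hlt | heq | hgt
  · have hM : v.Is (x₁ * x₂ - b) (α + β) := (h₁.mul h₂).sub_gt (hb.gt hlt)
    have hP := H.prod_is ha hb hh h2 hM hD
    have ho : oplus h α β = α + β := by unfold oplus; rw [if_pos hlt.le]
    rcases QVal.np_is_is hS' hP (by linarith) with ⟨r1, r2⟩ | ⟨r1, r2⟩
    · exact Or.inl ⟨r1, by rw [ho]; exact fx_of_is (r2.congr (by ring)) (by linarith) (by linarith)⟩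
    · exact Or.inr ⟨r1, by rw [ho]; exact fx_of_is (r2.congr (by ring)) (by linarith) (by linarith)⟩
  · have hM : v.Ge (x₁ * x₂ - b) h := ((h₁.mul h₂).ge' heq.ge).sub hb.ge
    have hP := H.prod_ge ha hb hh h2 hM hD
    have ho : oplus h α β = h := by unfold oplus; rw [if_pos heq.le, heq]
    rcases QVal.np_is hS' hP (by linarith) with ⟨r1, r2⟩ | ⟨r1, r2⟩
    · exact Or.inl ⟨r1, by rw [ho]; exact fx_of_ge hh.le (r2.mono (by linarith))⟩
    · exact Or.inr ⟨r1, by rw [ho]; exact fx_of_ge hh.le (r2.mono (by linarith))⟩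
  · have hM : v.Is (x₁ * x₂ - b) h := hb.sub_gt' ((h₁.mul h₂).gt hgt)
    have hP := H.prod_is ha hb hh h2 hM hD
    have ho : oplus h α β = 2 * h - (α + β) := by unfold oplus; rw [if_neg (not_le.mpr hgt)]
    rcases QVal.np_is_is hS' hP (by linarith) with ⟨r1, r2⟩ | ⟨r1, r2⟩
    · exact Or.inl ⟨r1, by rw [ho]; exact fx_of_is (r2.congr (by ring)) (by linarith) (by linarith)⟩
    · exact Or.inr ⟨r1, by rw [ho]; exact fx_of_is (r2.congr (by ring)) (by linarith) (by linarith)⟩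

/-- Case II.b: `0 < α = β < h`. -/
lemma RootData.case_mid_mid_eq {α : ℚ} (h₁ : v.Is x₁ α) (h₂ : v.Is x₂ α) (hα : 0 < α)
    (hαh : α < h) :
    (fx v h z₁ = 0 ∧ fx v h z₂ = oplus h α α) ∨ (fx v h z₂ = 0 ∧ fx v h z₁ = oplus h α α) := by
  have hD0 : x₁ - x₂ ≠ 0 := sub_ne_zero.mpr H.ne
  have hD := QVal.is_ord (v := v) hD0
  set d := v.ord (x₁ - x₂) with hd
  have hdα : α ≤ d := (h₁.ge.sub h₂.ge).resolve_left hD0
  have hu := H.numer_is_of_pos ha hb hh h2 h₁ h₂.ge hα hα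
  have hN : v.Is ((x₁ + x₂) * (x₁ * x₂ + b) + 2 * a * x₁ * x₂) (α + α) := by
    rw [H.numer_eq ha hb hh h2]
    have t2 : v.Is (x₁ * x₂ * (x₁ + x₂ + 2 * a)) (α + α) := by simpa using (h₁.mul h₂).mul hu
    have t3 : v.Gt (b * (x₁ + x₂)) (α + α) := by
      have := hb.ge.mul (h₁.ge.add h₂.ge)
      exact this.gt (by linarith)
    exact t2.add_gt t3
  have hS := H.sum_is ha hb hh h2 hN hD
  have hS' : v.Is (z₁ + z₂) (2 * α - 2 * d) := hS.congr (by ring)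
  rcases lt_trichotomy (α + α) h with hlt | heq | hgt
  · have hM : v.Is (x₁ * x₂ - b) (α + α) := (h₁.mul h₂).sub_gt (hb.gt hlt)
    have hP := H.prod_is ha hb hh h2 hM hD
    have ho : oplus h α α = α + α := by unfold oplus; rw [if_pos hlt.le]
    rcases QVal.np_is_is hS' hP (by linarith) with ⟨r1, r2⟩ | ⟨r1, r2⟩
    · exact Or.inl ⟨fx_of_is_le hh.le r1 (by linarith),
        by rw [ho]; exact fx_of_is (r2.congr (by ring)) (by linarith) (by linarith)⟩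
    · exact Or.inr ⟨fx_of_is_le hh.le r1 (by linarith),
        by rw [ho]; exact fx_of_is (r2.congr (by ring)) (by linarith) (by linarith)⟩
  · have hM : v.Ge (x₁ * x₂ - b) h := ((h₁.mul h₂).ge' heq.ge).sub hb.ge
    have hP := H.prod_ge ha hb hh h2 hM hD
    have ho : oplus h α α = h := by unfold oplus; rw [if_pos heq.le, heq]
    rcases QVal.np_is hS' hP (by linarith) with ⟨r1, r2⟩ | ⟨r1, r2⟩
    · exact Or.inl ⟨fx_of_is_le hh.le r1 (by linarith),
        by rw [ho]; exact fx_of_ge hh.le (r2.mono (by linarith))⟩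
    · exact Or.inr ⟨fx_of_is_le hh.le r1 (by linarith),
        by rw [ho]; exact fx_of_ge hh.le (r2.mono (by linarith))⟩
  · have hM : v.Is (x₁ * x₂ - b) h := hb.sub_gt' ((h₁.mul h₂).gt hgt)
    have hP := H.prod_is ha hb hh h2 hM hD
    have ho : oplus h α α = 2 * h - (α + α) := by unfold oplus; rw [if_neg (not_le.mpr hgt)]
    rcases QVal.np_is_is hS' hP (by linarith) with ⟨r1, r2⟩ | ⟨r1, r2⟩
    · exact Or.inl ⟨fx_of_is_le hh.le r1 (by linarith),
        by rw [ho]; exact fx_of_is (r2.congr (by ring)) (by linarith) (by linarith)⟩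
    · exact Or.inr ⟨fx_of_is_le hh.le r1 (by linarith),
        by rw [ho]; exact fx_of_is (r2.congr (by ring)) (by linarith) (by linarith)⟩

/-- Case II.c: `0 < α < h` and `ord x₂ ≥ h`. -/
lemma RootData.case_mid_top {α : ℚ} (h₁ : v.Is x₁ α) (h₂ : v.Ge x₂ h) (hα : 0 < α)
    (hαh : α < h) : v.Is z₁ (h - α) ∧ v.Is z₂ (h - α) := by
  have hD : v.Is (x₁ - x₂) α := h₁.sub_gt (h₂.gt hαh)
  have hu := H.numer_is_of_pos ha hb hh h2 h₁ h₂ hα hh
  have hM : v.Is (x₁ * x₂ - b) h := hb.sub_gt' ((h₁.ge.mul h₂).gt (by linarith))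
  have hN : v.Ge ((x₁ + x₂) * (x₁ * x₂ + b) + 2 * a * x₁ * x₂) (α + h) := by
    rw [H.numer_eq ha hb hh h2]
    have t2 : v.Ge (x₁ * x₂ * (x₁ + x₂ + 2 * a)) (α + h) := by
      simpa using (h₁.ge.mul h₂).mul hu.ge
    have t3 : v.Ge (b * (x₁ + x₂)) (α + h) := by
      have := hb.ge.mul (h₁.ge.add (h₂.mono hαh.le))
      exact this.mono (by linarith)
    exact t2.add t3
  have hP := H.prod_is ha hb hh h2 hM hD
  have hS := H.sum_ge ha hb hh h2 hN hD
  exact QVal.np_eq (hS.mono (by linarith)) (hP.congr (by ring))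

/-- Case III: both `x`'s have order `≥ h`. -/
lemma RootData.case_top_top (h₁ : v.Ge x₁ h) (h₂ : v.Ge x₂ h) : v.Le z₁ 0 ∧ v.Le z₂ 0 := by
  have hD0 : x₁ - x₂ ≠ 0 := sub_ne_zero.mpr H.ne
  have hD := QVal.is_ord (v := v) hD0
  set d := v.ord (x₁ - x₂) with hd
  have hdh : h ≤ d := (h₁.sub h₂).resolve_left hD0
  have hM : v.Is (x₁ * x₂ - b) h := hb.sub_gt' ((h₁.mul h₂).gt (by linarith))
  have hN : v.Ge ((x₁ + x₂) * (x₁ * x₂ + b) + 2 * a * x₁ * x₂) (h + h) := by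
    rw [H.numer_eq ha hb hh h2]
    have h2a : v.Ge (2 * a) 0 := (h2.mul ha).ge' (by linarith)
    have t1 : v.Ge (x₁ + x₂ + 2 * a) 0 := ((h₁.add h₂).mono hh.le).add h2a
    have t2 : v.Ge (x₁ * x₂ * (x₁ + x₂ + 2 * a)) (h + h) := by
      simpa using (h₁.mul h₂).mul t1
    have t3 : v.Ge (b * (x₁ + x₂)) (h + h) := hb.ge.mul (h₁.add h₂)
    exact t2.add t3
  have hP := H.prod_is ha hb hh h2 hM hD
  have hS := H.sum_ge ha hb hh h2 hN hD
  exact QVal.np_le hP hS (by linarith) (by linarith)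

/-- **The pair law for the two roots.** -/
theorem RootData.pairLaw : PairLaw h (fx v h z₁) (fx v h z₂) (fx v h x₁) (fx v h x₂) := by
  have hh' := hh.le
  rcases fx_cases v h x₁ with c₁ | ⟨α, hα0, hαh, c₁⟩ | c₁ <;>
  rcases fx_cases v h x₂ with c₂ | ⟨β, hβ0, hβh, c₂⟩ | c₂
  · -- le, le
    obtain ⟨r1, r2⟩ := H.case_le_le ha hb hh h2 c₁ c₂
    rw [fx_of_le hh' c₁, fx_of_le hh' c₂, fx_of_le hh' r1, fx_of_le hh' r2]
    left
    unfold oplus
    simp [hh']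
  · -- le, mid
    obtain ⟨r1, r2⟩ := H.case_le_mid ha hb hh h2 c₁ c₂ hβ0 hβh
    rw [fx_of_le hh' c₁, fx_of_is c₂ hβ0.le hβh.le, fx_of_is r1 hβ0.le hβh.le,
      fx_of_is r2 hβ0.le hβh.le]
    left
    unfold oplus
    rw [zero_add, if_pos hβh.le, zero_sub, abs_neg, abs_of_pos hβ0]
    exact ⟨rfl, rfl⟩
  · -- le, top
    obtain ⟨r1, r2⟩ := H.case_le_top ha hb hh h2 c₁ c₂
    rw [fx_of_le hh' c₁, fx_of_ge hh' c₂, fx_of_ge hh' r1, fx_of_ge hh' r2]
    left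
    unfold oplus
    rw [zero_add, if_pos le_rfl, zero_sub, abs_neg, abs_of_pos hh]
    exact ⟨rfl, rfl⟩
  · -- mid, le
    obtain ⟨r1, r2⟩ := H.symm.case_le_mid ha hb hh h2 c₂ c₁ hα0 hαh
    rw [fx_of_le hh' c₂, fx_of_is c₁ hα0.le hαh.le, fx_of_is r1 hα0.le hαh.le,
      fx_of_is r2 hα0.le hαh.le]
    left
    unfold oplus
    rw [add_zero, if_pos hαh.le, sub_zero, abs_of_pos hα0]
    exact ⟨rfl, rfl⟩
  · -- mid, mid
    rw [fx_of_is c₁ hα0.le hαh.le, fx_of_is c₂ hβ0.le hβh.le]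
    rcases lt_trichotomy α β with hlt | heq | hgt
    · rcases H.case_mid_mid_lt ha hb hh h2 c₁ c₂ hα0 hlt hβh with ⟨r1, r2⟩ | ⟨r1, r2⟩
      · right
        rw [r2, fx_of_is r1 (by linarith) (by linarith), abs_sub_comm, abs_of_pos (by linarith)]
        exact ⟨rfl, rfl⟩
      · left
        rw [r2, fx_of_is r1 (by linarith) (by linarith), abs_sub_comm, abs_of_pos (by linarith)]
        exact ⟨rfl, rfl⟩
    · subst heq
      unfold PairLaw
      rw [sub_self, abs_zero]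
      rcases H.case_mid_mid_eq ha hb hh h2 c₁ c₂ hα0 hαh with ⟨r1, r2⟩ | ⟨r1, r2⟩
      · right
        exact ⟨r1, r2⟩
      · left
        exact ⟨r2, r1⟩
    · rcases H.symm.case_mid_mid_lt ha hb hh h2 c₂ c₁ hβ0 hgt hαh with ⟨r1, r2⟩ | ⟨r1, r2⟩
      · right
        rw [r2, fx_of_is r1 (by linarith) (by linarith), abs_of_pos (by linarith), oplus_comm]
        exact ⟨rfl, rfl⟩
      · left
        rw [r2, fx_of_is r1 (by linarith) (by linarith), abs_of_pos (by linarith), oplus_comm]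
        exact ⟨rfl, rfl⟩
  · -- mid, top
    obtain ⟨r1, r2⟩ := H.case_mid_top ha hb hh h2 c₁ c₂ hα0 hαh
    rw [fx_of_is c₁ hα0.le hαh.le, fx_of_ge hh' c₂, fx_of_is r1 (by linarith) (by linarith),
      fx_of_is r2 (by linarith) (by linarith)]
    left
    unfold oplus
    rw [if_neg (by linarith), abs_sub_comm, abs_of_pos (by linarith)]
    exact ⟨by ring, rfl⟩
  · -- top, le
    obtain ⟨r1, r2⟩ := H.symm.case_le_top ha hb hh h2 c₂ c₁
    rw [fx_of_le hh' c₂, fx_of_ge hh' c₁, fx_of_ge hh' r1, fx_of_ge hh' r2]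
    left
    unfold oplus
    rw [add_zero, if_pos le_rfl, sub_zero, abs_of_pos hh]
    exact ⟨rfl, rfl⟩
  · -- top, mid
    obtain ⟨r1, r2⟩ := H.symm.case_mid_top ha hb hh h2 c₂ c₁ hβ0 hβh
    rw [fx_of_is c₂ hβ0.le hβh.le, fx_of_ge hh' c₁, fx_of_is r1 (by linarith) (by linarith),
      fx_of_is r2 (by linarith) (by linarith)]
    left
    unfold oplus
    rw [if_neg (by linarith), abs_of_pos (by linarith)]
    exact ⟨by ring, rfl⟩
  · -- top, top
    obtain ⟨r1, r2⟩ := H.case_top_top ha hb hh h2 c₁ c₂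
    rw [fx_of_ge hh' c₁, fx_of_ge hh' c₂, fx_of_le hh' r1, fx_of_le hh' r2]
    left
    unfold oplus
    rw [if_neg (by linarith), sub_self, abs_zero]
    exact ⟨by ring, rfl⟩

end roots

end Fermat.Agent.S05Lib
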